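/-
S31 (wave 9b): `p`-power roots of unity of `ℚ̄` under inertia and Frobenius elements at primes
different from `p`.

* `eq_of_residue_eq`: two `pⁿ`-th roots of unity of a valuation ring `A` of `ℚ̄` over `ℓ ≠ p` which
  are congruent modulo the maximal ideal are equal.
* `inertia_apply`: inertia at `q ≠ p` fixes the `pⁿ`-th roots of unity.
* `frob_apply`, `frob_pow_apply`: a Frobenius element `σ` at `ℓ ≠ p` satisfies `σ ζ = ζ ^ ℓ`,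
  `σ^m ζ = ζ ^ (ℓ^m)`.
* `modEq_of_agree`: the congruence `ℓ₁^m₁ ≡ ℓ₂^m₂ mod pⁿ` used in the top assembly.
-/
import Fermat.Agent.S29.Cyc

set_option autoImplicit false

noncomputable section

namespace Fermat.Agent.S31.CycPow

open Fermat.Agent.S29

local notation "Qbar" => AlgebraicClosure ℚ

variable (A : ValuationSubring Qbar)

/-- a `p`-power root of unity of `A` (over `ℓ ≠ p`) congruent to `1` is `1`. -/
theorem eq_one_of_residue_eq_one {p ℓ : ℕ} (hp : p.Prime) (hℓ : ℓ.Prime) (hℓp : ℓ ≠ p)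
    (hA : A.LiesOverPrime ℓ) (n : ℕ) (η : A) (hη : η ^ (p ^ n) = 1)
    (hres : IsLocalRing.residue A η = 1) : η = 1 := by
  induction n generalizing η with
  | zero => simpa using hη
  | succ n ih =>
    have h1 : η ^ p = 1 :=
      ih (η ^ p) (by rw [← pow_mul, ← pow_succ']; exact hη) (by rw [map_pow, hres, one_pow])
    by_contra hne
    have : Fact p.Prime := Fact.mk hp
    have hord : orderOf η = p := orderOf_eq_prime h1 hne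
    have hprim : IsPrimitiveRoot η p := hord ▸ IsPrimitiveRoot.orderOf η
    have h2 := Cyc.pow_eq_of_residue_eq A hp hℓ hℓp hA hprim 1 0
      (by rw [pow_one, pow_zero, hres, map_one])
    rw [pow_one, pow_zero] at h2
    exact hne h2

/-- two `pⁿ`-th roots of unity of `A` (over `ℓ ≠ p`) with the same residue are equal. -/
theorem eq_of_residue_eq {p ℓ : ℕ} (hp : p.Prime) (hℓ : ℓ.Prime) (hℓp : ℓ ≠ p)
    (hA : A.LiesOverPrime ℓ) (n : ℕ) (a b : A) (ha : a ^ (p ^ n) = 1) (hb : b ^ (p ^ n) = 1)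
    (h : IsLocalRing.residue A a = IsLocalRing.residue A b) : a = b := by
  have hpn : 0 < p ^ n := pow_pos hp.pos n
  have hη : a * b ^ (p ^ n - 1) = 1 := by
    apply eq_one_of_residue_eq_one A hp hℓ hℓp hA n
    · rw [mul_pow, ha, one_mul, ← pow_mul, mul_comm, pow_mul, hb, one_pow]
    · rw [map_mul, map_pow, h, ← pow_succ', Nat.sub_add_cancel hpn, ← map_pow, hb, map_one]
  calc a = a * b ^ (p ^ n) := by rw [hb, mul_one]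
    _ = (a * b ^ (p ^ n - 1)) * b := by rw [mul_assoc, ← pow_succ, Nat.sub_add_cancel hpn]
    _ = b := by rw [hη, one_mul]

/-- inertia at `q ≠ p` fixes the `pⁿ`-th roots of unity. -/
theorem inertia_apply {p q : ℕ} (hp : p.Prime) (hq : q.Prime) (hqp : q ≠ p)
    (hA : A.LiesOverPrime q) {τ : Qbar ≃ₐ[ℚ] Qbar} (hτ : τ ∈ A.inertiaSubgroupIn ℚ) (n : ℕ)
    (ζ : Qbar) (hζ : ζ ^ (p ^ n) = 1) : τ ζ = ζ := by
  have hpn : p ^ n ≠ 0 := pow_ne_zero n hp.ne_zero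
  have hmem : ζ ∈ A := Cyc.mem_of_pow_eq_one A hpn hζ
  obtain ⟨ha, hres⟩ := Cyc.residue_map_of_mem_inertia A hτ ⟨ζ, hmem⟩
  have h1 : (⟨τ ζ, ha⟩ : A) ^ (p ^ n) = 1 := by
    apply Subtype.ext
    show (τ ζ) ^ (p ^ n) = 1
    rw [← map_pow, hζ, map_one]
  have h2 : (⟨ζ, hmem⟩ : A) ^ (p ^ n) = 1 := Subtype.ext hζ
  exact congrArg Subtype.val (eq_of_residue_eq A hp hq hqp hA n _ _ h1 h2 hres)

/-- a Frobenius element at `ℓ ≠ p` raises the `pⁿ`-th roots of unity to the `ℓ`-th power. -/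
theorem frob_apply {p ℓ : ℕ} (hp : p.Prime) (hℓ : ℓ.Prime) (hℓp : ℓ ≠ p)
    (hA : A.LiesOverPrime ℓ) {σ : Qbar ≃ₐ[ℚ] Qbar} (hσ : A.IsFrobeniusAt σ ℓ) (n : ℕ)
    (ζ : Qbar) (hζ : ζ ^ (p ^ n) = 1) : σ ζ = ζ ^ ℓ := by
  have hpn : p ^ n ≠ 0 := pow_ne_zero n hp.ne_zero
  have hmem : ζ ∈ A := Cyc.mem_of_pow_eq_one A hpn hζ
  obtain ⟨ha, hres⟩ := Cyc.residue_map_of_isFrobeniusAt A hσ ⟨ζ, hmem⟩
  have h1 : (⟨σ ζ, ha⟩ : A) ^ (p ^ n) = 1 := by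
    apply Subtype.ext
    show (σ ζ) ^ (p ^ n) = 1
    rw [← map_pow, hζ, map_one]
  have h2 : ((⟨ζ, hmem⟩ : A) ^ ℓ) ^ (p ^ n) = 1 := by
    apply Subtype.ext
    show (ζ ^ ℓ) ^ (p ^ n) = 1
    rw [← pow_mul, mul_comm, pow_mul, hζ, one_pow]
  exact congrArg Subtype.val (eq_of_residue_eq A hp hℓ hℓp hA n _ _ h1 h2 hres)

theorem frob_pow_apply {p ℓ : ℕ} (hp : p.Prime) (hℓ : ℓ.Prime) (hℓp : ℓ ≠ p)
    (hA : A.LiesOverPrime ℓ) {σ : Qbar ≃ₐ[ℚ] Qbar} (hσ : A.IsFrobeniusAt σ ℓ) (n : ℕ)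
    (ζ : Qbar) (hζ : ζ ^ (p ^ n) = 1) (m : ℕ) : (σ ^ m) ζ = ζ ^ (ℓ ^ m) := by
  induction m with
  | zero => simp
  | succ m ih =>
    rw [pow_succ, AlgEquiv.mul_apply, frob_apply A hp hℓ hℓp hA hσ n ζ hζ, map_pow, ih, ← pow_mul,
      ← pow_succ]

/-- the congruence used in the top assembly: if `h τ` and `σ₁^m₁` agree on `ζ`, `h` and `σ₂^m₂`
agree on `ζ`, `τ` is in an inertia group at `q ≠ p` and `σᵢ` are Frobenius elements at `ℓᵢ ≠ p`,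
then `ℓ₁^m₁ ≡ ℓ₂^m₂ mod pⁿ`. -/
theorem modEq_of_agree {p : ℕ} (hp : p.Prime) (n : ℕ) {ζ : Qbar} (hζ : IsPrimitiveRoot ζ (p ^ n))
    {q : ℕ} (hq : q.Prime) (hqp : q ≠ p) (P : ValuationSubring Qbar) (hP : P.LiesOverPrime q)
    {τ : Qbar ≃ₐ[ℚ] Qbar} (hτ : τ ∈ P.inertiaSubgroupIn ℚ)
    {ℓ₁ : ℕ} (hℓ₁ : ℓ₁.Prime) (hℓ₁p : ℓ₁ ≠ p) (A₁ : ValuationSubring Qbar)
    (hA₁ : A₁.LiesOverPrime ℓ₁) {σ₁ : Qbar ≃ₐ[ℚ] Qbar} (hσ₁ : A₁.IsFrobeniusAt σ₁ ℓ₁)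
    {ℓ₂ : ℕ} (hℓ₂ : ℓ₂.Prime) (hℓ₂p : ℓ₂ ≠ p) (A₂ : ValuationSubring Qbar)
    (hA₂ : A₂.LiesOverPrime ℓ₂) {σ₂ : Qbar ≃ₐ[ℚ] Qbar} (hσ₂ : A₂.IsFrobeniusAt σ₂ ℓ₂)
    (h : Qbar ≃ₐ[ℚ] Qbar) (m₁ m₂ : ℕ) (h1 : (h * τ) ζ = (σ₁ ^ m₁) ζ) (h2 : h ζ = (σ₂ ^ m₂) ζ) :
    ℓ₁ ^ m₁ ≡ ℓ₂ ^ m₂ [MOD p ^ n] := by
  have hζ1 : ζ ^ (p ^ n) = 1 := hζ.pow_eq_one
  rw [AlgEquiv.mul_apply, inertia_apply P hp hq hqp hP hτ n ζ hζ1, h2,
    frob_pow_apply A₁ hp hℓ₁ hℓ₁p hA₁ hσ₁ n ζ hζ1, frob_pow_apply A₂ hp hℓ₂ hℓ₂p hA₂ hσ₂ n ζ hζ1] at h1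
  have hfin : IsOfFinOrder ζ :=
    isOfFinOrder_iff_pow_eq_one.mpr ⟨p ^ n, pow_pos hp.pos n, hζ1⟩
  have := hfin.pow_eq_pow_iff_modEq.mp h1
  rw [← hζ.eq_orderOf] at this
  exact this.symm

end Fermat.Agent.S31.CycPow
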