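/-
S31 (wave 9b): interface of the proof of
`CuspForm.HeckeGaloisRepDatum.isUnramifiedAt_of_notMem` by the direct finite-level route
(trace rigidity at finite level; board #1119, #1131, #1141, #1147).

`LatticeStmt` is the one input from the `[IV]` side: a finitely generated free `ℤ`-lattice `Λ`
with commuting operators `tr ℓ` (`ℓ ∤ N`), such that

* the cusp forms of weight `2` on `Γ₀(N)` embed Hecke-equivariantly in a complex vector space
  spanned by (the image of) `Λ`, and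
* for every `n`, `Λ / pⁿ Λ` embeds Hecke-equivariantly in `J₀(N)(ℚ̄)[pⁿ]`.

It is instantiated with `Λ = Hom_par(Γ₀(N), ℤ)` and `tr ℓ` the transfer (`S29/Transfer.lean`).
-/
import Fermat.Statements.S31
import Fermat.Prelude.Def_ModularCurve_HeckeModule

set_option autoImplicit false

noncomputable section

namespace Fermat.Agent.S31

/-- The lattice input of the direct route to S31. -/
def LatticeStmt : Prop :=
  ∀ (N : ℕ) [NeZero N] (p : ℕ), p.Prime →
    ∃ (Λ : Type) (_ : AddCommGroup Λ) (_ : Module.Finite ℤ Λ) (_ : Module.Free ℤ Λ)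
      (tr : ∀ ℓ : Nat.Primes, ¬ (ℓ : ℕ) ∣ N → Module.End ℤ Λ)
      (E : Type) (_ : AddCommGroup E) (_ : Module ℂ E)
      (trE : ∀ ℓ : Nat.Primes, ¬ (ℓ : ℕ) ∣ N → Module.End ℂ E)
      (j : Λ →+ E) (ι : CuspForm (CongruenceSubgroup.Gamma0 N) 2 →ₗ[ℂ] E),
      Function.Injective ι ∧
      (∀ f, ι f ∈ Submodule.span ℂ (Set.range j)) ∧
      (∀ ℓ h x, trE ℓ h (j x) = j (tr ℓ h x)) ∧
      (∀ ℓ h f, ι (CuspForm.heckeTLin 2 ℓ.2 h f) = trE ℓ h (ι f)) ∧
      ∀ n : ℕ, ∃ Φ : Λ →+ ModularCurve.JZero N,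
        (∀ x, p ^ n • Φ x = 0) ∧
        (∀ x, Φ x = 0 → ∃ y, x = p ^ n • y) ∧
        ∀ (ℓ : Nat.Primes) (h : ¬ (ℓ : ℕ) ∣ N), (ℓ : ℕ) ≠ p →
          ∀ x, ModularCurve.heckeOperatorBar N ℓ (Φ x) = Φ (tr ℓ h x)

end Fermat.Agent.S31
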