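/-
S31 (wave 9b): the lattice input `LatticeStmt` of the direct route from the `[IV]` embedding
`Emb.EmbStmt` (`Λ/mΛ ↪ J₀(N)(ℚ̄)[m]`, Hecke-equivariant, every `m ≥ 1`) of wave 9a.

Instantiation: `Λ = Hom_par(Γ₀(N), ℤ)` (finitely generated and free, `S29/Eig.lean`), `tr ℓ` the
transfer on `Λ`, `E = Hom(Γ₀(N), ℂ)` with the transfer `trE ℓ`, `j` the coefficient inclusion, `ι`
the period map (injective by Eichler–Shimura, with image in the parabolic homomorphisms, which are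
spanned by `j(Λ)`; it intertwines the Hecke operators with the transfer), and for each `n` the
embedding at `m = p ^ n`.
-/
import Fermat.Agent.S31.Iface
import Fermat.Agent.S29.EmbIface
import Fermat.Agent.S29.Eig

set_option autoImplicit false

noncomputable section

open scoped MatrixGroups TensorProduct
open UpperHalfPlane CongruenceSubgroup ModularCurve ModularCurve.Period
open Fermat.Agent.S29 Fermat.Agent.S29.Transfer

namespace Fermat.Agent.S31.HeckeLat

/-- The transfer operator on `Hom(Γ₀(N), ℂ)` as a `ℂ`-linear endomorphism. -/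
def trE (N : ℕ) (ℓ : Nat.Primes) (hℓN : ¬ (ℓ : ℕ) ∣ N) :
    Module.End ℂ (Additive (Gamma0 N) →+ ℂ) :=
  haveI : Fact (ℓ : ℕ).Prime := ⟨ℓ.2⟩
  { toFun := tr ℂ hℓN
    map_add' := map_add _
    map_smul' := fun c ψ => Eig.tr_smul hℓN c ψ }

theorem trE_apply (N : ℕ) (ℓ : Nat.Primes) (hℓN : ¬ (ℓ : ℕ) ∣ N)
    (ψ : Additive (Gamma0 N) →+ ℂ) :
    trE N ℓ hℓN ψ = (haveI : Fact (ℓ : ℕ).Prime := ⟨ℓ.2⟩; tr ℂ hℓN ψ) := rfl

/-- The period map is injective. -/
theorem periodMapLin_injective (N : ℕ) [NeZero N] :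
    Function.Injective (Fermat.Agent.S21.PeriodMap.periodMapLin N) := by
  rw [← LinearMap.ker_eq_bot, LinearMap.ker_eq_bot']
  intro f hf
  by_contra hne
  exact Eig.periodMap_ne_zero hne hf

/-- The image of the period map is spanned by the integral parabolic homomorphisms. -/
theorem periodMap_mem_span (N : ℕ) [NeZero N] (f : CuspForm (Gamma0 N) 2) :
    Fermat.Agent.S21.PeriodMap.periodMapLin N f ∈
      Submodule.span ℂ (Set.range ((Eig.castHom N).toAddMonoidHom)) := by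
  have key : ∀ v : ℂ ⊗[ℤ] Λ N,
      Eig.μ N v ∈ Submodule.span ℂ (Set.range ((Eig.castHom N).toAddMonoidHom)) := by
    intro v
    induction v using TensorProduct.induction_on with
    | zero => rw [map_zero]; exact Submodule.zero_mem _
    | tmul c χ =>
      rw [Eig.μ_tmul]
      exact Submodule.smul_mem _ c (Submodule.subset_span ⟨χ, rfl⟩)
    | add x y hx hy => rw [map_add]; exact Submodule.add_mem _ hx hy
  obtain ⟨v, hv⟩ := Eig.exists_μ_eq (Fermat.Agent.S21.PeriodMap.periodMap_mem_parabolicHoms N f)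
  show periodMap N f ∈ _
  rw [← hv]
  exact key v

theorem not_dvd_mul_pow {N p n : ℕ} (hp : p.Prime) (ℓ : Nat.Primes) (h : ¬ (ℓ : ℕ) ∣ N)
    (hℓp : (ℓ : ℕ) ≠ p) : ¬ (ℓ : ℕ) ∣ N * p ^ n := by
  intro hd
  rcases (Nat.Prime.dvd_mul ℓ.2).mp hd with h1 | h1
  · exact h h1
  · exact hℓp ((Nat.prime_dvd_prime_iff_eq ℓ.2 hp).mp (ℓ.2.dvd_of_dvd_pow h1))

/-- **The lattice input of S31 from the embedding of wave 9a.** -/
theorem latticeStmt_of_emb (hemb : Emb.EmbStmt) : LatticeStmt := by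
  intro N _ p hp
  refine ⟨Λ N, inferInstance, ?_, ?_, fun ℓ h => (trΛ N ℓ h).toAddMonoidHom.toIntLinearMap,
    Additive (Gamma0 N) →+ ℂ, inferInstance, inferInstance, trE N,
    (Eig.castHom N).toAddMonoidHom, Fermat.Agent.S21.PeriodMap.periodMapLin N,
    periodMapLin_injective N, periodMap_mem_span N, ?_, ?_, ?_⟩
  · exact Eig.finite_Λ N
  · exact Eig.free_Λ N
  · -- `trE (j x) = j (tr x)`
    intro ℓ h x
    haveI : Fact (ℓ : ℕ).Prime := ⟨ℓ.2⟩
    show tr ℂ h ((Int.castAddHom ℂ).comp (x : Additive (Gamma0 N) →+ ℤ)) =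
      (Int.castAddHom ℂ).comp ((trΛ N ℓ h x : Λ N) : Additive (Gamma0 N) →+ ℤ)
    rw [coe_trΛ]
    exact tr_comp h (Int.castAddHom ℂ) (x : Additive (Gamma0 N) →+ ℤ)
  · -- `ι (T_ℓ f) = trE (ι f)`
    intro ℓ h f
    haveI : Fact (ℓ : ℕ).Prime := ⟨ℓ.2⟩
    exact (Eig.tr_periodMap ℓ.2 h f).symm
  · intro n
    have hm : 0 < p ^ n := pow_pos hp.pos n
    obtain ⟨Φ, hker, hhecke⟩ := hemb N (p ^ n) hm
    refine ⟨((Jtor N (p ^ n)).subtype.toAddMonoidHom).comp Φ.toAddMonoidHom, ?_, ?_, ?_⟩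
    · intro x
      have h1 := (Φ x).2
      rw [Submodule.mem_torsionBy_iff] at h1
      show p ^ n • ((Φ x : Jtor N (p ^ n)) : JZero N) = 0
      rw [← natCast_zsmul]
      exact h1
    · intro x hx
      have h0 : Φ x = 0 := Subtype.ext hx
      obtain ⟨y, hy⟩ := hker x h0
      exact ⟨y, by rw [hy, natCast_zsmul]⟩
    · intro ℓ h hℓp x
      have h1 := hhecke ℓ (not_dvd_mul_pow hp ℓ h hℓp) x
      have h2 := congrArg (Subtype.val : Jtor N (p ^ n) → JZero N) h1
      rw [coe_heckeTor] at h2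
      exact h2

end Fermat.Agent.S31.HeckeLat

end
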