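/-
S31 (wave 9b): the trace recursion for endomorphisms of a free module of rank two, and a trace
congruence.

* `dick t d m`: `D₀ = 2`, `D₁ = t`, `D_{m+2} = t · D_{m+1} - d · D_m` (in any ring, `d : ℤ`).
* `trace_pow`: if `charpoly f = X² - t X + d` on a free module of rank `2`, then
  `tr(f ^ m) = D_m(t, d)`.
* `trace_sub_mem`: if `f v - g v ∈ I • ⊤` for all `v`, then `tr f - tr g ∈ I`.
-/
import Mathlib

set_option autoImplicit false

open Polynomial

namespace Fermat.Agent.S31.Dickson

/-- the sequence `D₀ = 2`, `D₁ = t`, `D_{m+2} = t · D_{m+1} - d · D_m`. -/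
def dick {R : Type*} [Ring R] (t : R) (d : ℤ) : ℕ → R
  | 0 => 2
  | 1 => t
  | (m + 2) => t * dick t d (m + 1) - d • dick t d m

@[simp] theorem dick_zero {R : Type*} [Ring R] (t : R) (d : ℤ) : dick t d 0 = 2 := rfl

@[simp] theorem dick_one {R : Type*} [Ring R] (t : R) (d : ℤ) : dick t d 1 = t := rfl

theorem dick_succ_succ {R : Type*} [Ring R] (t : R) (d : ℤ) (m : ℕ) :
    dick t d (m + 2) = t * dick t d (m + 1) - d • dick t d m := rfl

theorem map_dick {R S : Type*} [Ring R] [Ring S] (f : R →+* S) (t : R) (d : ℤ) (m : ℕ) :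
    f (dick t d m) = dick (f t) d m := by
  induction m using Nat.strong_induction_on with
  | _ m ih =>
    match m with
    | 0 => rw [dick_zero, dick_zero, map_ofNat]
    | 1 => simp
    | (m + 2) =>
      rw [dick_succ_succ, dick_succ_succ, map_sub, map_mul, map_zsmul, ih (m + 1) (by omega),
        ih m (by omega)]

/-- `dick t d m` commutes with everything commuting with `t`. -/
theorem commute_dick {R : Type*} [Ring R] {t s : R} (h : Commute s t) (d : ℤ) (m : ℕ) :
    Commute s (dick t d m) := by
  induction m using Nat.strong_induction_on with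
  | _ m ih =>
    match m with
    | 0 => exact Commute.ofNat_right s 2
    | 1 => exact h
    | (m + 2) =>
      rw [dick_succ_succ]
      exact (h.mul_right (ih (m + 1) (by omega))).sub_right
        ((ih m (by omega)).smul_right d)

section Trace

variable {T : Type*} [CommRing T] [Nontrivial T] {V : Type*} [AddCommGroup V] [Module T V]
  [Module.Free T V] [Module.Finite T V]

/-- trace and Cayley–Hamilton in rank two. -/
theorem trace_eq_of_charpoly (hV : Module.finrank T V = 2) (f : Module.End T V) (t d : T)
    (hf : f.charpoly = X ^ 2 - C t * X + C d) :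
    LinearMap.trace T V f = t ∧ f * f = t • f - d • 1 := by
  classical
  constructor
  · set b : Module.Basis (Fin 2) T V := Module.finBasisOfFinrankEq T V hV
    have h1 : (LinearMap.toMatrix b b f).charpoly = f.charpoly := LinearMap.charpoly_toMatrix f b
    rw [Matrix.charpoly_fin_two, hf] at h1
    have h2 := congrArg (fun q : T[X] => q.coeff 1) h1
    simp only [coeff_add, coeff_sub, coeff_X_pow, coeff_C_mul, coeff_X_one, coeff_C] at h2
    norm_num at h2
    rw [LinearMap.trace_eq_matrix_trace T b f]
    exact h2
  · have h := LinearMap.aeval_self_charpoly f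
    rw [hf] at h
    simp only [map_add, map_sub, map_mul, map_pow, aeval_X, aeval_C] at h
    rw [Algebra.algebraMap_eq_smul_one, Algebra.algebraMap_eq_smul_one, smul_mul_assoc,
      one_mul, pow_two] at h
    rw [eq_sub_iff_add_eq, ← sub_eq_zero]
    rw [← h]
    abel

/-- **trace of powers**: if `charpoly f = X² - t X + d` in rank two then `tr(f^m) = D_m(t, d)`. -/
theorem trace_pow (hV : Module.finrank T V = 2) (f : Module.End T V) (t : T) (d : ℤ)
    (hf : f.charpoly = X ^ 2 - C t * X + C (d : T)) (m : ℕ) :
    LinearMap.trace T V (f ^ m) = dick t d m := by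
  obtain ⟨htr, hsq⟩ := trace_eq_of_charpoly hV f t (d : T) hf
  induction m using Nat.strong_induction_on with
  | _ m ih =>
    match m with
    | 0 =>
      rw [pow_zero, LinearMap.trace_one, hV, dick_zero]
      norm_num
    | 1 => rw [pow_one, htr, dick_one]
    | (m + 2) =>
      have e : f ^ (m + 2) = t • f ^ (m + 1) - (d : T) • f ^ m := by
        rw [pow_add, pow_two, hsq, mul_sub, mul_smul_comm, mul_smul_comm, mul_one, ← pow_succ]
      rw [e, map_sub, map_smul, map_smul, ih (m + 1) (by omega), ih m (by omega), dick_succ_succ,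
        smul_eq_mul, smul_eq_mul, zsmul_eq_mul]

end Trace

section Congr

variable {T : Type*} [CommRing T] {V : Type*} [AddCommGroup V] [Module T V]
  [Module.Free T V] [Module.Finite T V]

omit [Module.Free T V] [Module.Finite T V] in
theorem repr_mem_of_mem_smul_top {ι : Type*} (b : Module.Basis ι T V) (I : Ideal T) {x : V}
    (hx : x ∈ I • (⊤ : Submodule T V)) (i : ι) : b.repr x i ∈ I := by
  refine Submodule.smul_induction_on (p := fun x => b.repr x i ∈ I) hx ?_ ?_
  · intro a ha w _
    rw [map_smul, Finsupp.smul_apply, smul_eq_mul]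
    exact I.mul_mem_right _ ha
  · intro x y hx hy
    rw [map_add, Finsupp.add_apply]
    exact I.add_mem hx hy

/-- **trace congruence**: if `f ≡ g` modulo `I` then `tr f ≡ tr g` modulo `I`. -/
theorem trace_sub_mem (I : Ideal T) (f g : Module.End T V)
    (h : ∀ v, f v - g v ∈ I • (⊤ : Submodule T V)) :
    LinearMap.trace T V f - LinearMap.trace T V g ∈ I := by
  classical
  set b := Module.Free.chooseBasis T V
  rw [← map_sub, LinearMap.trace_eq_matrix_trace T b (f - g), Matrix.trace]
  refine I.sum_mem fun i _ => ?_
  rw [Matrix.diag_apply, LinearMap.toMatrix_apply]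
  exact repr_mem_of_mem_smul_top b I (h (b i)) i

end Congr

end Fermat.Agent.S31.Dickson
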