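/-
S31 (wave 9b): the lattice bridge.

Data: a finite free `ℤ`-module `Λ` with endomorphisms `tr ℓ` (`ℓ ∤ N`), a `ℂ`-vector space `E` with
endomorphisms `trE ℓ`, an additive map `j : Λ → E` intertwining `tr` and `trE`, and an injective
`ℂ`-linear map `ι : S₂(Γ₀(N)) → E` with values in the `ℂ`-span of `j(Λ)` intertwining the Hecke
operators `T_ℓ` and `trE ℓ`.

`Lattice.bridge`: there is `c` such that whenever
`D_{m₁}(tr ℓ₁, ℓ₁) - D_{m₂}(tr ℓ₂, ℓ₂)` maps `Λ` into `p^(n+c) Λ`, then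
`d' • (D_{m₁}(T_{ℓ₁}, ℓ₁) - D_{m₂}(T_{ℓ₂}, ℓ₂)) = p^n • t` for some `t` in the Hecke algebra and some
`d'` prime to `p`.
-/
import Fermat.Prelude.Def_CuspForm_HeckeAlgebra
import Fermat.Agent.S31.Dickson

set_option autoImplicit false

open Fermat.Agent.S31.Dickson

namespace Fermat.Agent.S31.Lattice

/-! ### Uniform denominators -/

/-- In a Noetherian `ℤ`-module, the elements having a nonzero multiple in a given submodule have a
common such multiplier. -/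
theorem exists_uniform_denominator {M : Type*} [AddCommGroup M] [IsNoetherian ℤ M]
    (𝔄 : Submodule ℤ M) :
    ∃ d₀ : ℕ, d₀ ≠ 0 ∧ ∀ A : M, (∃ d : ℕ, d ≠ 0 ∧ d • A ∈ 𝔄) → d₀ • A ∈ 𝔄 := by
  classical
  let Sat : Submodule ℤ M :=
    { carrier := {A | ∃ d : ℕ, d ≠ 0 ∧ d • A ∈ 𝔄}
      add_mem' := by
        rintro A B ⟨d₁, hd₁, h₁⟩ ⟨d₂, hd₂, h₂⟩
        refine ⟨d₁ * d₂, Nat.mul_ne_zero hd₁ hd₂, ?_⟩
        have e : (d₁ * d₂) • (A + B) = d₂ • (d₁ • A) + d₁ • (d₂ • B) := by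
          rw [smul_add, mul_smul, mul_comm d₁ d₂, mul_smul, smul_comm d₁ d₂ A, smul_comm d₁ d₂ B]
        rw [e]
        exact 𝔄.add_mem (𝔄.smul_of_tower_mem d₂ h₁) (𝔄.smul_of_tower_mem d₁ h₂)
      zero_mem' := ⟨1, one_ne_zero, by rw [smul_zero]; exact 𝔄.zero_mem⟩
      smul_mem' := by
        rintro k A ⟨d, hd, h⟩
        refine ⟨d, hd, ?_⟩
        rw [smul_comm]
        exact 𝔄.smul_mem k h }
  obtain ⟨s, hs⟩ : Sat.FG := IsNoetherian.noetherian Sat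
  have hmem : ∀ a ∈ s, ∃ d : ℕ, d ≠ 0 ∧ d • a ∈ 𝔄 := by
    intro a ha
    have : a ∈ Sat := by rw [← hs]; exact Submodule.subset_span ha
    exact this
  choose! d hd using hmem
  refine ⟨∏ a ∈ s, d a, Finset.prod_ne_zero_iff.mpr fun a ha => (hd a ha).1, ?_⟩
  intro A hA
  have hA' : A ∈ Submodule.span ℤ (s : Set M) := by rw [hs]; exact hA
  refine Submodule.span_induction (p := fun A _ => (∏ a ∈ s, d a) • A ∈ 𝔄) ?_ ?_ ?_ ?_ hA'
  · intro a ha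
    obtain ⟨k, hk⟩ := Finset.dvd_prod_of_mem d ha
    rw [hk, mul_comm, mul_smul]
    exact 𝔄.smul_of_tower_mem k (hd a ha).2
  · rw [smul_zero]; exact 𝔄.zero_mem
  · intro x y _ _ hx hy
    rw [smul_add]; exact 𝔄.add_mem hx hy
  · intro k x _ hx
    rw [smul_comm]; exact 𝔄.smul_mem k hx

/-- division of an endomorphism of a torsion-free module by a nonzero integer. -/
theorem exists_div {Λ : Type*} [AddCommGroup Λ] [IsAddTorsionFree Λ] (A : Module.End ℤ Λ) (k : ℕ)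
    (hk : k ≠ 0) (h : ∀ x, ∃ y, A x = k • y) : ∃ Eo : Module.End ℤ Λ, A = k • Eo := by
  choose y hy using h
  have hinj : Function.Injective (fun z : Λ => k • z) := nsmul_right_injective hk
  refine ⟨{ toFun := y
            map_add' := fun a b => hinj (by
              show k • y (a + b) = k • (y a + y b)
              rw [smul_add, ← hy, ← hy, ← hy, map_add])
            map_smul' := fun c a => hinj (by
              show k • y (c • a) = k • ((RingHom.id ℤ) c • y a)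
              rw [RingHom.id_apply, smul_comm k c, ← hy, ← hy, map_smul]) }, ?_⟩
  ext x
  rw [LinearMap.smul_apply]
  exact hy x

/-! ### The correspondence between `End Λ` and `End S₂` -/

section Cor

variable {Λ : Type*} [AddCommGroup Λ] {E : Type*} [AddCommGroup E] [Module ℂ E]
  {V : Type*} [AddCommGroup V] [Module ℂ V] (j : Λ →+ E) (ι : V →ₗ[ℂ] E)

/-- `A : End Λ` and `t : End V` are induced by the same endomorphism of `E`. -/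
def Cor (A : Module.End ℤ Λ) (t : Module.End ℂ V) : Prop :=
  ∃ AE : Module.End ℂ E, (∀ x, AE (j x) = j (A x)) ∧ ∀ f, ι (t f) = AE (ι f)

theorem cor_add {A A' : Module.End ℤ Λ} {t t' : Module.End ℂ V} (h : Cor j ι A t)
    (h' : Cor j ι A' t') : Cor j ι (A + A') (t + t') := by
  obtain ⟨AE, h1, h2⟩ := h
  obtain ⟨AE', h1', h2'⟩ := h'
  refine ⟨AE + AE', fun x => ?_, fun f => ?_⟩
  · rw [LinearMap.add_apply, LinearMap.add_apply, h1, h1', map_add]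
  · rw [LinearMap.add_apply, LinearMap.add_apply, map_add, h2, h2']

theorem cor_sub {A A' : Module.End ℤ Λ} {t t' : Module.End ℂ V} (h : Cor j ι A t)
    (h' : Cor j ι A' t') : Cor j ι (A - A') (t - t') := by
  obtain ⟨AE, h1, h2⟩ := h
  obtain ⟨AE', h1', h2'⟩ := h'
  refine ⟨AE - AE', fun x => ?_, fun f => ?_⟩
  · rw [LinearMap.sub_apply, LinearMap.sub_apply, h1, h1', map_sub]
  · rw [LinearMap.sub_apply, LinearMap.sub_apply, map_sub, h2, h2']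

theorem cor_mul {A A' : Module.End ℤ Λ} {t t' : Module.End ℂ V} (h : Cor j ι A t)
    (h' : Cor j ι A' t') : Cor j ι (A * A') (t * t') := by
  obtain ⟨AE, h1, h2⟩ := h
  obtain ⟨AE', h1', h2'⟩ := h'
  refine ⟨AE * AE', fun x => ?_, fun f => ?_⟩
  · rw [Module.End.mul_apply, Module.End.mul_apply, h1', h1]
  · rw [Module.End.mul_apply, Module.End.mul_apply, h2, h2']

theorem cor_one : Cor j ι (1 : Module.End ℤ Λ) (1 : Module.End ℂ V) :=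
  ⟨1, fun _ => rfl, fun _ => rfl⟩

theorem cor_zsmul {A : Module.End ℤ Λ} {t : Module.End ℂ V} (h : Cor j ι A t) (k : ℤ) :
    Cor j ι (k • A) (k • t) := by
  obtain ⟨AE, h1, h2⟩ := h
  refine ⟨k • AE, fun x => ?_, fun f => ?_⟩
  · rw [LinearMap.smul_apply, LinearMap.smul_apply, h1, map_zsmul]
  · rw [LinearMap.smul_apply, LinearMap.smul_apply, map_zsmul, h2]

theorem cor_nsmul {A : Module.End ℤ Λ} {t : Module.End ℂ V} (h : Cor j ι A t) (k : ℕ) :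
    Cor j ι (k • A) (k • t) := by
  have := cor_zsmul j ι h (k : ℤ)
  rwa [natCast_zsmul, natCast_zsmul] at this

theorem cor_ofNat_two : Cor j ι (2 : Module.End ℤ Λ) (2 : Module.End ℂ V) := by
  have := cor_add j ι (cor_one j ι) (cor_one j ι)
  rwa [one_add_one_eq_two, one_add_one_eq_two] at this

theorem cor_dick {A : Module.End ℤ Λ} {t : Module.End ℂ V} (h : Cor j ι A t) (d : ℤ) (m : ℕ) :
    Cor j ι (dick A d m) (dick t d m) := by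
  induction m using Nat.strong_induction_on with
  | _ m ih =>
    match m with
    | 0 => exact cor_ofNat_two j ι
    | 1 => exact h
    | (m + 2) =>
      rw [dick_succ_succ, dick_succ_succ]
      exact cor_sub j ι (cor_mul j ι h (ih (m + 1) (by omega)))
        (cor_zsmul j ι (ih m (by omega)) d)

/-- uniqueness: `t` is determined by `A`. -/
theorem cor_unique (hι : Function.Injective ι)
    (hspan : ∀ f, ι f ∈ Submodule.span ℂ (Set.range j))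
    {A : Module.End ℤ Λ} {t t' : Module.End ℂ V} (h : Cor j ι A t) (h' : Cor j ι A t') :
    t = t' := by
  obtain ⟨AE, h1, h2⟩ := h
  obtain ⟨AE', h1', h2'⟩ := h'
  have hE : ∀ e ∈ Submodule.span ℂ (Set.range j), AE e = AE' e := by
    intro e he
    refine Submodule.span_induction (p := fun e _ => AE e = AE' e) ?_ ?_ ?_ ?_ he
    · rintro _ ⟨x, rfl⟩
      rw [h1, h1']
    · rw [map_zero, map_zero]
    · intro x y _ _ hx hy
      rw [map_add, map_add, hx, hy]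
    · intro c x _ hx
      rw [map_smul, map_smul, hx]
  ext f
  apply hι
  rw [h2, h2', hE _ (hspan f)]

end Cor

/-! ### The bridge -/

theorem dick_mem {R : Type*} [Ring R] (B : Subalgebra ℤ R) {t : R} (ht : t ∈ B) (d : ℤ) (m : ℕ) :
    dick t d m ∈ B := by
  induction m using Nat.strong_induction_on with
  | _ m ih =>
    match m with
    | 0 =>
      rw [dick_zero, ← one_add_one_eq_two]
      exact B.add_mem B.one_mem B.one_mem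
    | 1 => exact ht
    | (m + 2) =>
      rw [dick_succ_succ]
      exact B.sub_mem (B.mul_mem ht (ih (m + 1) (by omega))) (B.smul_mem (ih m (by omega)) d)

section Bridge

open CuspForm

variable (N : ℕ) [NeZero N] (S : Set ℕ) (p : ℕ)
  {Λ : Type*} [AddCommGroup Λ]
  (tr : ∀ ℓ : Nat.Primes, ¬ (ℓ : ℕ) ∣ N → Module.End ℤ Λ)
  {E : Type*} [AddCommGroup E] [Module ℂ E]
  (trE : ∀ ℓ : Nat.Primes, ¬ (ℓ : ℕ) ∣ N → Module.End ℂ E)
  (j : Λ →+ E) (ι : CuspForm (CongruenceSubgroup.Gamma0 N) 2 →ₗ[ℂ] E)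

/-- the `ℤ`-algebra generated by the `tr ℓ`, `ℓ ∤ N`, `ℓ ∉ S`. -/
def latAlg : Subalgebra ℤ (Module.End ℤ Λ) :=
  Algebra.adjoin ℤ {A | ∃ (ℓ : Nat.Primes) (h : ¬ (ℓ : ℕ) ∣ N), (ℓ : ℕ) ∉ S ∧ A = tr ℓ h}

variable {N S tr trE j ι}

omit [NeZero N] in
theorem cor_tr (hj : ∀ ℓ h x, trE ℓ h (j x) = j (tr ℓ h x))
    (hT : ∀ (ℓ : Nat.Primes) (h : ¬ (ℓ : ℕ) ∣ N) f,
      ι (heckeTLin 2 ℓ.2 h f) = trE ℓ h (ι f))
    (ℓ : Nat.Primes) (h : ¬ (ℓ : ℕ) ∣ N) : Cor j ι (tr ℓ h) (heckeTLin 2 ℓ.2 h) :=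
  ⟨trE ℓ h, hj ℓ h, hT ℓ h⟩

theorem exists_cor_of_mem_latAlg (hj : ∀ ℓ h x, trE ℓ h (j x) = j (tr ℓ h x))
    (hT : ∀ (ℓ : Nat.Primes) (h : ¬ (ℓ : ℕ) ∣ N) f,
      ι (heckeTLin 2 ℓ.2 h f) = trE ℓ h (ι f))
    {A : Module.End ℤ Λ} (hA : A ∈ latAlg N S tr) :
    ∃ t ∈ heckeAlgebra N 2 S, Cor j ι A t := by
  unfold latAlg at hA
  induction hA using Algebra.adjoin_induction with
  | mem A hA =>
    obtain ⟨ℓ, h, hS, rfl⟩ := hA
    exact ⟨_, heckeTLin_mem_heckeAlgebra ℓ.2 h hS, cor_tr hj hT ℓ h⟩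
  | algebraMap k =>
    refine ⟨algebraMap ℤ _ k, Subalgebra.algebraMap_mem _ k, ?_⟩
    rw [Algebra.algebraMap_eq_smul_one, Algebra.algebraMap_eq_smul_one]
    exact cor_zsmul j ι (cor_one j ι) k
  | add A B _ _ hA hB =>
    obtain ⟨t, ht, h⟩ := hA
    obtain ⟨t', ht', h'⟩ := hB
    exact ⟨t + t', Subalgebra.add_mem _ ht ht', cor_add j ι h h'⟩
  | mul A B _ _ hA hB =>
    obtain ⟨t, ht, h⟩ := hA
    obtain ⟨t', ht', h'⟩ := hB
    exact ⟨t * t', Subalgebra.mul_mem _ ht ht', cor_mul j ι h h'⟩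

/-- **The lattice bridge.** -/
theorem bridge [Module.Finite ℤ Λ] [Module.Free ℤ Λ] (hp : p.Prime) (hι : Function.Injective ι)
    (hspan : ∀ f, ι f ∈ Submodule.span ℂ (Set.range j))
    (hj : ∀ ℓ h x, trE ℓ h (j x) = j (tr ℓ h x))
    (hT : ∀ (ℓ : Nat.Primes) (h : ¬ (ℓ : ℕ) ∣ N) f,
      ι (heckeTLin 2 ℓ.2 h f) = trE ℓ h (ι f)) :
    ∃ c : ℕ, ∀ (n : ℕ) (ℓ₁ ℓ₂ : Nat.Primes) (h₁ : ¬ (ℓ₁ : ℕ) ∣ N) (h₂ : ¬ (ℓ₂ : ℕ) ∣ N),
      (ℓ₁ : ℕ) ∉ S → (ℓ₂ : ℕ) ∉ S → ∀ (m₁ m₂ : ℕ),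
      (∀ x : Λ, ∃ y : Λ, (dick (tr ℓ₁ h₁) ((ℓ₁ : ℕ) : ℤ) m₁ - dick (tr ℓ₂ h₂) ((ℓ₂ : ℕ) : ℤ) m₂) x
        = (p ^ (n + c)) • y) →
      ∃ (d' : ℕ) (t : Module.End ℂ (CuspForm (CongruenceSubgroup.Gamma0 N) 2)),
        ¬ p ∣ d' ∧ t ∈ heckeAlgebra N 2 S ∧
        d' • (dick (heckeTLin 2 ℓ₁.2 h₁) ((ℓ₁ : ℕ) : ℤ) m₁ -
            dick (heckeTLin 2 ℓ₂.2 h₂) ((ℓ₂ : ℕ) : ℤ) m₂) = p ^ n • t := by
  classical
  have : IsAddTorsionFree Λ := IsAddTorsionFree.of_isTorsionFree ℤ Λ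
  obtain ⟨d₀, hd₀, hsat⟩ :=
    exists_uniform_denominator (Subalgebra.toSubmodule (latAlg N S tr))
  obtain ⟨c, d', hd', hd₀eq⟩ : ∃ c d' : ℕ, ¬ p ∣ d' ∧ d₀ = p ^ c * d' :=
    Nat.exists_eq_pow_mul_and_not_dvd hd₀ p hp.ne_one
  refine ⟨c, fun n ℓ₁ ℓ₂ h₁ h₂ hS₁ hS₂ m₁ m₂ hdiv => ?_⟩
  set δΛ : Module.End ℤ Λ :=
    dick (tr ℓ₁ h₁) ((ℓ₁ : ℕ) : ℤ) m₁ - dick (tr ℓ₂ h₂) ((ℓ₂ : ℕ) : ℤ) m₂ with hδΛ
  set δ : Module.End ℂ (CuspForm (CongruenceSubgroup.Gamma0 N) 2) :=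
    dick (heckeTLin 2 ℓ₁.2 h₁) ((ℓ₁ : ℕ) : ℤ) m₁ -
      dick (heckeTLin 2 ℓ₂.2 h₂) ((ℓ₂ : ℕ) : ℤ) m₂ with hδ
  have hcor : Cor j ι δΛ δ :=
    cor_sub j ι (cor_dick j ι (cor_tr hj hT ℓ₁ h₁) _ _) (cor_dick j ι (cor_tr hj hT ℓ₂ h₂) _ _)
  have hgen : ∀ (ℓ : Nat.Primes) (h : ¬ (ℓ : ℕ) ∣ N), (ℓ : ℕ) ∉ S → tr ℓ h ∈ latAlg N S tr :=
    fun ℓ h hS => Algebra.subset_adjoin ⟨ℓ, h, hS, rfl⟩
  have hδmem : δΛ ∈ latAlg N S tr :=
    Subalgebra.sub_mem _ (dick_mem _ (hgen ℓ₁ h₁ hS₁) _ _) (dick_mem _ (hgen ℓ₂ h₂ hS₂) _ _)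
  obtain ⟨Eo, hEo⟩ := exists_div δΛ (p ^ (n + c)) (pow_ne_zero _ hp.ne_zero) hdiv
  have hEoSat : d₀ • Eo ∈ Subalgebra.toSubmodule (latAlg N S tr) :=
    hsat Eo ⟨p ^ (n + c), pow_ne_zero _ hp.ne_zero, by rw [← hEo]; exact hδmem⟩
  obtain ⟨t, ht, hcorE⟩ := exists_cor_of_mem_latAlg (ι := ι) hj hT hEoSat
  have hswap : p ^ (n + c) • d₀ • Eo = d₀ • δΛ := by rw [hEo, smul_comm]
  have e1 : d₀ • δ = p ^ (n + c) • t :=
    cor_unique j ι hι hspan (cor_nsmul j ι hcor d₀)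
      (by have := cor_nsmul j ι hcorE (p ^ (n + c)); rwa [hswap] at this)
  refine ⟨d', t, hd', ht, ?_⟩
  rw [hd₀eq, pow_add, mul_comm (p ^ n) (p ^ c), mul_smul, mul_smul] at e1
  have hpc : ((p ^ c : ℕ) : ℂ) ≠ 0 := Nat.cast_ne_zero.mpr (pow_ne_zero _ hp.ne_zero)
  have e2 : ((p ^ c : ℕ) : ℂ) • (d' • δ) = ((p ^ c : ℕ) : ℂ) • (p ^ n • t) := by
    rw [Nat.cast_smul_eq_nsmul, Nat.cast_smul_eq_nsmul]
    exact e1
  exact smul_right_injective _ hpc e2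

end Bridge

end Fermat.Agent.S31.Lattice
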