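/-
S31 (wave 9b): the trace recursion on the Jacobian side.

* `dick_hecke_apply`: on `J₀(N)[p^∞]`, for a Frobenius element `σ` at `ℓ ∤ N p`,
  `D_m(T_ℓ, ℓ) x = σ^m • x + ℓ^m • (σ^m)⁻¹ • x`.
* `dick_intertwine`: an additive map intertwining two endomorphisms intertwines their `D_m`.
-/
import Fermat.Agent.S29.C1
import Fermat.Agent.S31.Dickson

set_option autoImplicit false

noncomputable section

open ModularCurve AlgebraicCurve
open Fermat.Agent.S29 Fermat.Agent.S31.Dickson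

namespace Fermat.Agent.S31.TraceRec

local notation "Qb" => AlgebraicClosure ℚ

theorem two_apply {M : Type*} [AddCommGroup M] (x : M) : (2 : Module.End ℤ M) x = x + x := by
  rw [← one_add_one_eq_two, LinearMap.add_apply, Module.End.one_apply]

/-- an additive map intertwining two endomorphisms intertwines their `D_m`. -/
theorem dick_intertwine {M₁ M₂ : Type*} [AddCommGroup M₁] [AddCommGroup M₂] (Φ : M₁ →+ M₂)
    (t₁ : Module.End ℤ M₁) (t₂ : Module.End ℤ M₂) (h : ∀ x, t₂ (Φ x) = Φ (t₁ x)) (d : ℤ) (m : ℕ)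
    (x : M₁) : dick t₂ d m (Φ x) = Φ (dick t₁ d m x) := by
  induction m using Nat.strong_induction_on generalizing x with
  | _ m ih =>
    match m with
    | 0 => rw [dick_zero, dick_zero, two_apply, two_apply, map_add]
    | 1 => rw [dick_one, dick_one, h]
    | (m + 2) =>
      rw [dick_succ_succ, dick_succ_succ, LinearMap.sub_apply, LinearMap.sub_apply,
        Module.End.mul_apply, Module.End.mul_apply, LinearMap.smul_apply, LinearMap.smul_apply,
        ih (m + 1) (by omega), ih m (by omega), h, map_sub, map_zsmul]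

variable {N : ℕ} [NeZero N] {p : ℕ}

/-- **`D_m(T_ℓ, ℓ) = σ^m + ℓ^m σ^{-m}` on `J₀(N)[p^∞]`** for a Frobenius element `σ` at
`ℓ ∤ N p`. -/
theorem dick_hecke_apply {ℓ : ℕ} (hℓ : ℓ.Prime) (hℓNp : ¬ ℓ ∣ N * p) (A : ValuationSubring Qb)
    (hA : A.LiesOverPrime ℓ) {σ : Qb ≃ₐ[ℚ] Qb} (hσ : A.IsFrobeniusAt σ ℓ) (m : ℕ) {x : JZero N}
    (hx : ∃ n : ℕ, p ^ n • x = 0) :
    dick (heckeOperatorBar N ⟨ℓ, hℓ⟩) (ℓ : ℤ) m x = σ ^ m • x + ℓ ^ m • ((σ ^ m)⁻¹ • x) := by
  induction m using Nat.strong_induction_on with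
  | _ m ih =>
    match m with
    | 0 => rw [dick_zero, two_apply, pow_zero, pow_zero, one_smul, inv_one, one_smul, one_smul]
    | 1 =>
      rw [dick_one, pow_one, pow_one]
      exact C1.hecke_eq hℓ hℓNp A hA hσ hx
    | (m + 2) =>
      rw [dick_succ_succ, LinearMap.sub_apply, Module.End.mul_apply, LinearMap.smul_apply,
        ih (m + 1) (by omega), ih m (by omega), map_add, map_nsmul,
        C1.hecke_eq hℓ hℓNp A hA hσ (C1.tors_smul (σ ^ (m + 1)) hx),
        C1.hecke_eq hℓ hℓNp A hA hσ (C1.tors_smul ((σ ^ (m + 1))⁻¹) hx)]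
      have e1 : σ • σ ^ (m + 1) • x = σ ^ (m + 2) • x := by
        rw [← mul_smul, ← pow_succ']
      have e2 : σ⁻¹ • σ ^ (m + 1) • x = σ ^ m • x := by
        rw [← mul_smul, pow_succ', inv_mul_cancel_left]
      have e3 : σ • (σ ^ (m + 1))⁻¹ • x = (σ ^ m)⁻¹ • x := by
        rw [← mul_smul, pow_succ, mul_inv_rev, mul_inv_cancel_left]
      have e4 : σ⁻¹ • (σ ^ (m + 1))⁻¹ • x = (σ ^ (m + 2))⁻¹ • x := by
        rw [← mul_smul, pow_succ σ (m + 1), mul_inv_rev]
      rw [e1, e2, e3, e4, natCast_zsmul]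
      generalize σ ^ (m + 2) • x = a
      generalize σ ^ m • x = b
      generalize (σ ^ m)⁻¹ • x = c
      generalize (σ ^ (m + 2))⁻¹ • x = d
      have h1 : ℓ ^ (m + 1) • (c + ℓ • d) = ℓ ^ (m + 1) • c + ℓ ^ (m + 2) • d := by
        rw [nsmul_add, ← mul_nsmul', ← pow_succ]
      have h2 : ℓ • (b + ℓ ^ m • c) = ℓ • b + ℓ ^ (m + 1) • c := by
        rw [nsmul_add, ← mul_nsmul', ← pow_succ']
      rw [h1, h2]
      abel

end Fermat.Agent.S31.TraceRec
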