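/-
S31 (wave 9b): Burnside's theorem in dimension two and the trace-rigidity consequence.

* `mul_mul_self_of_det_eq_zero`: for a `2 × 2` matrix `c` of determinant `0`,
  `c * Y * c = tr(c * Y) • c`.
* `eq_zero_of_trace_mul_eq_zero`: over an algebraically closed field, if a submonoid `𝒢` of
  `2 × 2` matrices acts irreducibly on the plane and `tr(a * Z) = 0` for all `a ∈ 𝒢`, then `Z = 0`.
* `span_eq_top_of_absIrr`: over any field `k`, a submonoid of `M₂(k)` which is irreducible over an
  algebraically closed extension spans `M₂(k)`.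
* `span_eq_top_of_residue`: Nakayama: a submonoid of `M₂(T)`, `T` local, whose reduction spans
  `M₂(k)` spans `M₂(T)`.
-/
import Mathlib

set_option autoImplicit false

open Matrix

namespace Fermat.Agent.S31.Burn2

/-- For a `2 × 2` matrix `c` of determinant zero, `c * Y * c = tr(c * Y) • c`. -/
theorem mul_mul_self_of_det_eq_zero {K : Type*} [CommRing K] (c Y : Matrix (Fin 2) (Fin 2) K)
    (hc : c.det = 0) : c * Y * c = (c * Y).trace • c := by
  rw [Matrix.det_fin_two] at hc
  ext i j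
  fin_cases i <;> fin_cases j
  · simp only [Fin.zero_eta, Fin.isValue, Matrix.mul_apply, Fin.sum_univ_two, Matrix.trace_fin_two,
      Matrix.smul_apply, smul_eq_mul]
    linear_combination (-(Y 1 1)) * hc
  · simp only [Fin.zero_eta, Fin.isValue, Fin.mk_one, Matrix.mul_apply, Fin.sum_univ_two,
      Matrix.trace_fin_two, Matrix.smul_apply, smul_eq_mul]
    linear_combination (Y 0 1) * hc
  · simp only [Fin.zero_eta, Fin.isValue, Fin.mk_one, Matrix.mul_apply, Fin.sum_univ_two,
      Matrix.trace_fin_two, Matrix.smul_apply, smul_eq_mul]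
    linear_combination (Y 1 0) * hc
  · simp only [Fin.isValue, Fin.mk_one, Matrix.mul_apply, Fin.sum_univ_two,
      Matrix.trace_fin_two, Matrix.smul_apply, smul_eq_mul]
    linear_combination (-(Y 0 0)) * hc

/-- evaluation of matrices at a vector, as a linear map. -/
def evalAt {K : Type*} [CommRing K] (u : Fin 2 → K) :
    Matrix (Fin 2) (Fin 2) K →ₗ[K] (Fin 2 → K) where
  toFun b := b *ᵥ u
  map_add' b b' := Matrix.add_mulVec b b' u
  map_smul' r b := Matrix.smul_mulVec r b u

theorem eq_zero_of_forall_mulVec {K : Type*} [CommRing K] (c : Matrix (Fin 2) (Fin 2) K)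
    (h : ∀ v, c *ᵥ v = 0) : c = 0 := by
  ext i j
  have := congrFun (h (Pi.single j 1)) i
  simpa using this

/-- **Burnside in dimension two** (trace form): over an algebraically closed field, if a submonoid
`𝒢` of `2 × 2` matrices leaves no line stable, then the trace form is nondegenerate on its span. -/
theorem eq_zero_of_trace_mul_eq_zero {K : Type*} [Field K] [IsAlgClosed K]
    (𝒢 : Submonoid (Matrix (Fin 2) (Fin 2) K))
    (hirr : ∀ W : Submodule K (Fin 2 → K), (∀ a ∈ 𝒢, ∀ x ∈ W, a *ᵥ x ∈ W) → W = ⊥ ∨ W = ⊤)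
    (Z : Matrix (Fin 2) (Fin 2) K) (hZ : ∀ a ∈ 𝒢, (a * Z).trace = 0) : Z = 0 := by
  classical
  set B : Subalgebra K (Matrix (Fin 2) (Fin 2) K) :=
    Algebra.adjoin K (𝒢 : Set (Matrix (Fin 2) (Fin 2) K)) with hB
  have hBspan : ∀ b ∈ B, b ∈ Submodule.span K (𝒢 : Set (Matrix (Fin 2) (Fin 2) K)) := by
    intro b hb
    have h := Algebra.adjoin_eq_span K (𝒢 : Set (Matrix (Fin 2) (Fin 2) K))
    rw [Submonoid.closure_eq] at h
    rw [← h]
    exact hb
  have hBtr : ∀ b ∈ B, (b * Z).trace = 0 := by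
    intro b hb
    refine Submodule.span_induction (p := fun b _ => (b * Z).trace = 0) ?_ ?_ ?_ ?_ (hBspan b hb)
    · intro a ha
      exact hZ a ha
    · simp
    · intro x y _ _ hx hy
      rw [add_mul, Matrix.trace_add, hx, hy, add_zero]
    · intro r x _ hx
      rw [Matrix.smul_mul, Matrix.trace_smul, hx, smul_zero]
  have hGB : ∀ a ∈ 𝒢, a ∈ B := fun a ha => Algebra.subset_adjoin ha
  -- a non-scalar element
  have hns : ∃ a ∈ 𝒢, ∀ r : K, a ≠ r • (1 : Matrix (Fin 2) (Fin 2) K) := by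
    by_contra hcon
    push Not at hcon
    have hst : ∀ a ∈ 𝒢, ∀ x ∈ Submodule.span K {(Pi.single 0 1 : Fin 2 → K)},
        a *ᵥ x ∈ Submodule.span K {(Pi.single 0 1 : Fin 2 → K)} := by
      intro a ha x hx
      obtain ⟨r, hr⟩ := hcon a ha
      rw [hr, Matrix.smul_mulVec, Matrix.one_mulVec]
      exact Submodule.smul_mem _ _ hx
    rcases hirr _ hst with h | h
    · have h1 : (Pi.single 0 1 : Fin 2 → K) ∈ Submodule.span K {(Pi.single 0 1 : Fin 2 → K)} :=
        Submodule.subset_span rfl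
      rw [h, Submodule.mem_bot] at h1
      have := congrFun h1 0
      simp at this
    · have h1 : (Pi.single 1 1 : Fin 2 → K) ∈ Submodule.span K {(Pi.single 0 1 : Fin 2 → K)} := by
        rw [h]; exact Submodule.mem_top
      rw [Submodule.mem_span_singleton] at h1
      obtain ⟨r, hr⟩ := h1
      have := congrFun hr 1
      simp at this
  obtain ⟨a, ha, hanot⟩ := hns
  -- an eigenvalue
  obtain ⟨μ, hμ⟩ := Module.End.exists_eigenvalue (Matrix.toLin' a)
  obtain ⟨v, hv⟩ := hμ.exists_hasEigenvector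
  have hv0 : v ≠ 0 := hv.2
  have hav : a *ᵥ v = μ • v := by
    have := hv.apply_eq_smul
    rwa [Matrix.toLin'_apply] at this
  set c : Matrix (Fin 2) (Fin 2) K := a - μ • 1 with hc
  have hcv : c *ᵥ v = 0 := by
    rw [hc, Matrix.sub_mulVec, hav, Matrix.smul_mulVec, Matrix.one_mulVec, sub_self]
  have hcdet : c.det = 0 := Matrix.exists_mulVec_eq_zero_iff.mp ⟨v, hv0, hcv⟩
  have hc0 : c ≠ 0 := by
    intro h
    exact hanot μ (sub_eq_zero.mp h)
  have hcB : c ∈ B := B.sub_mem (hGB a ha) (B.smul_mem B.one_mem μ)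
  obtain ⟨v₀, hv₀⟩ : ∃ v₀, c *ᵥ v₀ ≠ 0 := by
    by_contra hcon
    push Not at hcon
    exact hc0 (eq_zero_of_forall_mulVec c hcon)
  -- the orbit of `u := c v₀` is everything
  have hW₁ : Submodule.map (evalAt (c *ᵥ v₀)) (Subalgebra.toSubmodule B) = ⊤ := by
    have hst : ∀ a ∈ 𝒢, ∀ x ∈ Submodule.map (evalAt (c *ᵥ v₀)) (Subalgebra.toSubmodule B),
        a *ᵥ x ∈ Submodule.map (evalAt (c *ᵥ v₀)) (Subalgebra.toSubmodule B) := by
      rintro a ha x ⟨b, hb, rfl⟩
      refine ⟨a * b, B.mul_mem (hGB a ha) hb, ?_⟩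
      show (a * b) *ᵥ (c *ᵥ v₀) = a *ᵥ (b *ᵥ (c *ᵥ v₀))
      simp only [Matrix.mulVec_mulVec, mul_assoc]
    rcases hirr _ hst with h | h
    · exfalso
      have h1 : c *ᵥ v₀ ∈ Submodule.map (evalAt (c *ᵥ v₀)) (Subalgebra.toSubmodule B) :=
        ⟨1, B.one_mem, by show (1 : Matrix (Fin 2) (Fin 2) K) *ᵥ (c *ᵥ v₀) = _; rw [Matrix.one_mulVec]⟩
      rw [h, Submodule.mem_bot] at h1
      exact hv₀ h1
    · exact h
  -- the common kernel is zero
  let W₂ : Submodule K (Fin 2 → K) :=
    { carrier := {v | ∀ b ∈ B, c *ᵥ (b *ᵥ v) = 0}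
      add_mem' := by
        intro x y hx hy b hb
        rw [Matrix.mulVec_add, Matrix.mulVec_add, hx b hb, hy b hb, add_zero]
      zero_mem' := by
        intro b _
        rw [Matrix.mulVec_zero, Matrix.mulVec_zero]
      smul_mem' := by
        intro r x hx b hb
        rw [Matrix.mulVec_smul, Matrix.mulVec_smul, hx b hb, smul_zero] }
  have hW₂ : W₂ = ⊥ := by
    have hst : ∀ a ∈ 𝒢, ∀ x ∈ W₂, a *ᵥ x ∈ W₂ := by
      intro a ha x hx b hb
      have := hx (b * a) (B.mul_mem hb (hGB a ha))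
      rwa [← Matrix.mulVec_mulVec] at this
    rcases hirr _ hst with h | h
    · exact h
    · exfalso
      have h1 : v₀ ∈ W₂ := by rw [h]; exact Submodule.mem_top
      have := h1 1 B.one_mem
      rw [Matrix.one_mulVec] at this
      exact hv₀ this
  have hkey : ∀ b ∈ B, ∀ b' ∈ B, c * (b' * Z * b) * c = 0 := by
    intro b hb b' hb'
    rw [mul_mul_self_of_det_eq_zero c _ hcdet]
    have : (c * (b' * Z * b)).trace = ((b * c * b') * Z).trace := by
      rw [show c * (b' * Z * b) = (c * b' * Z) * b by simp only [mul_assoc], Matrix.trace_mul_comm]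
      simp only [mul_assoc]
    rw [this, hBtr _ (B.mul_mem (B.mul_mem hb hcB) hb'), zero_smul]
  apply eq_zero_of_forall_mulVec
  intro w
  have hw : w ∈ Submodule.map (evalAt (c *ᵥ v₀)) (Subalgebra.toSubmodule B) := by
    rw [hW₁]; exact Submodule.mem_top
  obtain ⟨b, hb, rfl⟩ := hw
  have hmem : Z *ᵥ (evalAt (c *ᵥ v₀) b) ∈ W₂ := by
    intro b' hb'
    show c *ᵥ (b' *ᵥ (Z *ᵥ (b *ᵥ (c *ᵥ v₀)))) = 0
    have := congrArg (fun M => M *ᵥ v₀) (hkey b hb b' hb')
    simp only [Matrix.zero_mulVec] at this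
    rw [← this]
    simp only [Matrix.mulVec_mulVec, mul_assoc]
  rw [hW₂, Submodule.mem_bot] at hmem
  exact hmem

/-- every linear functional on `M₂(k)` is a trace form. -/
theorem exists_trace_form {k : Type*} [CommRing k] (f : Matrix (Fin 2) (Fin 2) k →ₗ[k] k) :
    ∃ Z : Matrix (Fin 2) (Fin 2) k, ∀ Y, f Y = (Y * Z).trace := by
  refine ⟨Matrix.of fun i j => f (Matrix.single j i 1), fun Y => ?_⟩
  have h : ∀ i j, f (Matrix.single i j (Y i j)) = Y i j * f (Matrix.single i j 1) := by
    intro i j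
    rw [← smul_eq_mul, ← map_smul, Matrix.smul_single, smul_eq_mul, mul_one]
  conv_lhs => rw [Matrix.matrix_eq_sum_single Y]
  simp only [Fin.sum_univ_two, Matrix.trace_fin_two, Matrix.mul_apply, Matrix.of_apply, map_add, h]

/-- over any field `k`, a submonoid of `M₂(k)` which acts irreducibly over an algebraically closed
extension `K` spans `M₂(k)`. -/
theorem span_eq_top_of_absIrr {k : Type*} [Field k] (K : Type*) [Field K] [IsAlgClosed K]
    [Algebra k K] (𝒢 : Submonoid (Matrix (Fin 2) (Fin 2) k))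
    (hirr : ∀ W : Submodule K (Fin 2 → K),
      (∀ a ∈ 𝒢, ∀ x ∈ W, (a.map (algebraMap k K)) *ᵥ x ∈ W) → W = ⊥ ∨ W = ⊤) :
    Submodule.span k (𝒢 : Set (Matrix (Fin 2) (Fin 2) k)) = ⊤ := by
  by_contra hne
  obtain ⟨f, hf0, hf⟩ := Submodule.exists_le_ker_of_lt_top _ (lt_top_iff_ne_top.mpr hne)
  obtain ⟨Z, hZ⟩ := exists_trace_form f
  have hZ0 : Z.map (algebraMap k K) = 0 := by
    refine eq_zero_of_trace_mul_eq_zero
      (𝒢.map (((algebraMap k K).mapMatrix :
        Matrix (Fin 2) (Fin 2) k →+* Matrix (Fin 2) (Fin 2) K) :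
        Matrix (Fin 2) (Fin 2) k →* Matrix (Fin 2) (Fin 2) K))
      ?_ _ ?_
    · intro W hW
      refine hirr W fun a ha x hx => ?_
      exact hW _ ⟨a, ha, rfl⟩ x hx
    · rintro _ ⟨a, ha, rfl⟩
      have h0 : (a * Z).trace = 0 := by
        rw [← hZ]
        exact hf (Submodule.subset_span ha)
      have h1 : ((algebraMap k K).mapMatrix a * Z.map (algebraMap k K)).trace =
          algebraMap k K ((a * Z).trace) := by
        rw [RingHom.mapMatrix_apply, ← Matrix.map_mul, AddMonoidHom.map_trace]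
      exact h1.trans (by rw [h0, map_zero])
  have hZ00 : Z = 0 := by
    apply Matrix.map_injective (algebraMap k K).injective
    show Z.map (algebraMap k K) = (0 : Matrix (Fin 2) (Fin 2) k).map (algebraMap k K)
    rw [hZ0, Matrix.map_zero _ (map_zero _)]
  apply hf0
  ext Y
  rw [hZ, hZ00, mul_zero, Matrix.trace_zero, LinearMap.zero_apply]

/-- Nakayama: a set of matrices over a local ring whose reductions span `M₂(k)` spans `M₂(T)`. -/
theorem span_eq_top_of_residue {T : Type*} [CommRing T] [IsLocalRing T]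
    (𝒢 : Set (Matrix (Fin 2) (Fin 2) T))
    (h : Submodule.span (IsLocalRing.ResidueField T)
      ((fun a : Matrix (Fin 2) (Fin 2) T => a.map (algebraMap T (IsLocalRing.ResidueField T))) '' 𝒢)
        = ⊤) :
    Submodule.span T 𝒢 = ⊤ := by
  classical
  set φ : Matrix (Fin 2) (Fin 2) T →ₗ[T] Matrix (Fin 2) (Fin 2) (IsLocalRing.ResidueField T) :=
    (Algebra.linearMap T (IsLocalRing.ResidueField T)).mapMatrix with hφ
  have hφa : ∀ a, φ a = a.map (algebraMap T (IsLocalRing.ResidueField T)) := fun a => rfl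
  have hsurj : Function.Surjective (algebraMap T (IsLocalRing.ResidueField T)) :=
    IsLocalRing.residue_surjective
  have hmap : Submodule.map φ (Submodule.span T 𝒢) = ⊤ := by
    rw [Submodule.map_span]
    have h2 := Submodule.restrictScalars_span T (IsLocalRing.ResidueField T) hsurj (φ '' 𝒢)
    rw [← h2]
    have h3 : (φ '' 𝒢) = ((fun a : Matrix (Fin 2) (Fin 2) T =>
        a.map (algebraMap T (IsLocalRing.ResidueField T))) '' 𝒢) := rfl
    rw [h3, h]
    rfl
  have hker : ∀ Y : Matrix (Fin 2) (Fin 2) T, φ Y = 0 →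
      Y ∈ IsLocalRing.maximalIdeal T • (⊤ : Submodule T (Matrix (Fin 2) (Fin 2) T)) := by
    intro Y hY
    have hent : ∀ i j, Y i j ∈ IsLocalRing.maximalIdeal T := by
      intro i j
      have := congrFun (congrFun hY i) j
      rw [hφa, Matrix.map_apply, Matrix.zero_apply, IsLocalRing.ResidueField.algebraMap_eq,
        IsLocalRing.residue_eq_zero_iff] at this
      exact this
    rw [Matrix.matrix_eq_sum_single Y]
    refine Submodule.sum_mem _ fun i _ => Submodule.sum_mem _ fun j _ => ?_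
    have : Matrix.single i j (Y i j) = Y i j • Matrix.single i j (1 : T) := by
      rw [Matrix.smul_single, smul_eq_mul, mul_one]
    rw [this]
    exact Submodule.smul_mem_smul (hent i j) Submodule.mem_top
  have hle : (⊤ : Submodule T (Matrix (Fin 2) (Fin 2) T)) ≤
      Submodule.span T 𝒢 ⊔ IsLocalRing.maximalIdeal T • ⊤ := by
    intro Y _
    have hY : φ Y ∈ Submodule.map φ (Submodule.span T 𝒢) := by rw [hmap]; exact Submodule.mem_top
    obtain ⟨Y', hY', hYY'⟩ := hY
    have : Y = Y' + (Y - Y') := by abel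
    rw [this]
    refine Submodule.add_mem_sup hY' (hker _ ?_)
    rw [map_sub, hYY', sub_self]
  exact top_le_iff.mp (Submodule.le_of_le_smul_of_le_jacobson_bot
    (Module.Finite.fg_top) (IsLocalRing.maximalIdeal_le_jacobson _) hle)

end Fermat.Agent.S31.Burn2
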