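/-
S31 (wave 9b): trace rigidity for a residually absolutely irreducible `GaloisRepAdic`.

`TraceRigid.eq_zero_of_trace`: if `tr(ρ(h) ∘ X) = 0` for all `h`, then `X = 0`.
-/
import Fermat.Prelude.Def_GaloisRep_Adic
import Fermat.Agent.S31.Burn2

set_option autoImplicit false

open scoped TensorProduct
open Matrix

namespace Fermat.Agent.S31.TraceRigid

variable {T : Type} [CommRing T] [IsLocalRing T]

/-- the matrix of `ρ(σ)` in a fixed basis. -/
noncomputable def mat (ρ : GaloisRepAdic T) (b : Module.Basis (Fin 2) T ρ.V) :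
    (AlgebraicClosure ℚ ≃ₐ[ℚ] AlgebraicClosure ℚ) →* Matrix (Fin 2) (Fin 2) T :=
  ((LinearMap.toMatrixAlgEquiv b : Module.End T ρ.V ≃ₐ[T] Matrix (Fin 2) (Fin 2) T) :
    Module.End T ρ.V →* Matrix (Fin 2) (Fin 2) T).comp ρ.ρ

theorem mat_apply (ρ : GaloisRepAdic T) (b : Module.Basis (Fin 2) T ρ.V)
    (σ : AlgebraicClosure ℚ ≃ₐ[ℚ] AlgebraicClosure ℚ) :
    mat ρ b σ = LinearMap.toMatrix b b (ρ.ρ σ) := rfl

/-- the `T`-span of the image of a residually absolutely irreducible representation is the full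
matrix algebra. -/
theorem span_range_eq_top (ρ : GaloisRepAdic T) (hirr : ρ.residual.IsAbsolutelyIrreducible)
    (b : Module.Basis (Fin 2) T ρ.V) :
    Submodule.span T (Set.range (mat ρ b)) = ⊤ := by
  classical
  apply Burn2.span_eq_top_of_residue
  set k := IsLocalRing.ResidueField T
  set K := AlgebraicClosure k
  set 𝒢 : Submonoid (Matrix (Fin 2) (Fin 2) k) :=
    (MonoidHom.mrange (mat ρ b)).map (((algebraMap T k).mapMatrix :
      Matrix (Fin 2) (Fin 2) T →+* Matrix (Fin 2) (Fin 2) k) :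
      Matrix (Fin 2) (Fin 2) T →* Matrix (Fin 2) (Fin 2) k) with h𝒢
  have hset : ((fun a : Matrix (Fin 2) (Fin 2) T => a.map (algebraMap T k)) '' Set.range (mat ρ b))
      = (𝒢 : Set (Matrix (Fin 2) (Fin 2) k)) := by
    ext x
    constructor
    · rintro ⟨a, ⟨σ, rfl⟩, rfl⟩
      exact ⟨mat ρ b σ, ⟨σ, rfl⟩, rfl⟩
    · rintro ⟨a, ⟨σ, rfl⟩, rfl⟩
      exact ⟨mat ρ b σ, ⟨σ, rfl⟩, rfl⟩
  rw [hset]
  apply Burn2.span_eq_top_of_absIrr K
  intro W hW
  -- transport to the frozen irreducibility statement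
  set b₂ : Module.Basis (Fin 2) K (K ⊗[k] (k ⊗[T] ρ.V)) :=
    Algebra.TensorProduct.basis K (Algebra.TensorProduct.basis k b) with hb₂
  have hmat : ∀ σ, LinearMap.toMatrix b₂ b₂ (((ρ.ρ σ).baseChange k).baseChange K) =
      ((mat ρ b σ).map (algebraMap T k)).map (algebraMap k K) := by
    intro σ
    rw [hb₂, LinearMap.toMatrix_baseChange, LinearMap.toMatrix_baseChange, mat_apply]
  have hW' := hirr (W.comap (b₂.equivFun : (K ⊗[k] (k ⊗[T] ρ.V)) →ₗ[K] (Fin 2 → K))) (by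
    intro σ x hx
    rw [Submodule.mem_comap] at hx ⊢
    have h1 : b₂.equivFun ((((ρ.ρ σ).baseChange k).baseChange K) x) =
        (((mat ρ b σ).map (algebraMap T k)).map (algebraMap k K)) *ᵥ (b₂.equivFun x) := by
      rw [← hmat σ]
      exact (LinearMap.toMatrix_mulVec_repr b₂ b₂ _ x).symm
    show b₂.equivFun ((((ρ.ρ σ).baseChange k).baseChange K) x) ∈ W
    rw [h1]
    exact hW _ ⟨mat ρ b σ, ⟨σ, rfl⟩, rfl⟩ _ hx)
  have hsurj : Function.Surjective (b₂.equivFun : (K ⊗[k] (k ⊗[T] ρ.V)) →ₗ[K] (Fin 2 → K)) :=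
    b₂.equivFun.surjective
  have hWmap : W = (W.comap (b₂.equivFun : (K ⊗[k] (k ⊗[T] ρ.V)) →ₗ[K] (Fin 2 → K))).map
      (b₂.equivFun : (K ⊗[k] (k ⊗[T] ρ.V)) →ₗ[K] (Fin 2 → K)) :=
    (Submodule.map_comap_eq_of_surjective hsurj W).symm
  rcases hW' with h | h
  · left
    have h' : W.comap (b₂.equivFun : (K ⊗[k] (k ⊗[T] ρ.V)) →ₗ[K] (Fin 2 → K)) = ⊥ := h
    rw [hWmap, h', Submodule.map_bot]
  · right
    have h' : W.comap (b₂.equivFun : (K ⊗[k] (k ⊗[T] ρ.V)) →ₗ[K] (Fin 2 → K)) = ⊤ := h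
    rw [hWmap, h', Submodule.map_top, LinearMap.range_eq_top]
    exact hsurj

/-- **Trace rigidity**: for a residually absolutely irreducible `ρ`, an endomorphism `X` with
`tr(ρ(h) ∘ X) = 0` for all `h` vanishes. -/
theorem eq_zero_of_trace (ρ : GaloisRepAdic T) (hirr : ρ.residual.IsAbsolutelyIrreducible)
    (X : Module.End T ρ.V) (hX : ∀ h, LinearMap.trace T ρ.V (ρ.ρ h * X) = 0) : X = 0 := by
  classical
  set b : Module.Basis (Fin 2) T ρ.V := Module.finBasisOfFinrankEq T ρ.V ρ.finrank_eq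
  have hspan := span_range_eq_top ρ hirr b
  have hall : ∀ Y : Matrix (Fin 2) (Fin 2) T, (Y * LinearMap.toMatrix b b X).trace = 0 := by
    intro Y
    have hY : Y ∈ Submodule.span T (Set.range (mat ρ b)) := by rw [hspan]; exact Submodule.mem_top
    refine Submodule.span_induction
      (p := fun Y _ => (Y * LinearMap.toMatrix b b X).trace = 0) ?_ ?_ ?_ ?_ hY
    · rintro _ ⟨h, rfl⟩
      rw [mat_apply, ← LinearMap.toMatrix_mul, ← LinearMap.trace_eq_matrix_trace]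
      exact hX h
    · simp
    · intro x y _ _ hx hy
      rw [add_mul, Matrix.trace_add, hx, hy, add_zero]
    · intro r x _ hx
      rw [Matrix.smul_mul, Matrix.trace_smul, hx, smul_zero]
  have h0 : LinearMap.toMatrix b b X = 0 := by
    rw [Matrix.ext_iff_trace_mul_left]
    intro Y
    rw [hall Y, mul_zero, Matrix.trace_zero]
  exact (LinearMap.toMatrix b b).injective (by rw [h0, map_zero])

/-- **Trace rigidity, group form**: if `tr ρ(g τ) = tr ρ(g)` for all `g`, then `ρ(τ) = 1`. -/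
theorem eq_one_of_trace (ρ : GaloisRepAdic T) (hirr : ρ.residual.IsAbsolutelyIrreducible)
    (τ : AlgebraicClosure ℚ ≃ₐ[ℚ] AlgebraicClosure ℚ)
    (h : ∀ g : AlgebraicClosure ℚ ≃ₐ[ℚ] AlgebraicClosure ℚ,
      LinearMap.trace T ρ.V (ρ.ρ (g * τ)) = LinearMap.trace T ρ.V (ρ.ρ g)) : ρ.ρ τ = 1 := by
  have h0 : ρ.ρ τ - 1 = 0 := by
    apply eq_zero_of_trace ρ hirr
    intro g
    rw [mul_sub, mul_one, map_sub, ← map_mul, h g, sub_self]
  exact sub_eq_zero.mp h0

end Fermat.Agent.S31.TraceRigid
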