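/-
S31 (wave 9b): top assembly of the direct finite-level route.

`Top.result_of_iface : LatticeStmt → S29.ChebStmt → <frozen S31 statement>`.

For `τ` in an inertia group at `q ∉ S` and `h ∈ G_ℚ`, weak Chebotarev writes `h τ` and `h` as
powers of Frobenius elements at primes `ℓ₁, ℓ₂ ∉ S` on a large number field.  The traces of
`ρ(h τ)`, `ρ(h)` are then congruent modulo `𝔪ⁿ` to `π(D_{m₁}(T_{ℓ₁}, ℓ₁))`, `π(D_{m₂}(T_{ℓ₂}, ℓ₂))`,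
and the difference of these two Hecke operators kills the image of the lattice in
`J₀(N)[p^(n+c)]` (Eichler–Shimura on torsion + triviality of inertia on torsion and on `μ_{p^∞}`),
hence lies in `pⁿ 𝕋` up to a unit (lattice bridge).  So `tr ρ(h τ) = tr ρ(h)` for all `h`, and
trace rigidity gives `ρ(τ) = 1`.
-/
import Fermat.Statements.S31
import Fermat.Agent.S29.Iface
import Fermat.Agent.S29.C1
import Fermat.Agent.S29.FinLevel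
import Fermat.Agent.S31.Iface
import Fermat.Agent.S31.TraceRigid
import Fermat.Agent.S31.Dickson
import Fermat.Agent.S31.Lattice
import Fermat.Agent.S31.CycPow
import Fermat.Agent.S31.TraceRec

set_option autoImplicit false

noncomputable section

open ModularCurve AlgebraicCurve CuspForm
open Fermat.Agent.S29 Fermat.Agent.S31.Dickson

namespace Fermat.Agent.S31.Top

local notation "Qb" => AlgebraicClosure ℚ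

/-! ### Small helpers -/

theorem nsmul_eq_of_modEq {M : Type*} [AddCommGroup M] {a b k : ℕ} (h : a ≡ b [MOD k]) {z : M}
    (hz : k • z = 0) : a • z = b • z := by
  obtain ⟨t, ht⟩ := (Nat.modEq_iff_dvd.mp h)
  have h1 : ((b : ℤ) - (a : ℤ)) • z = 0 := by
    rw [ht, mul_comm, mul_smul, natCast_zsmul, hz, smul_zero]
  rw [sub_smul, natCast_zsmul, natCast_zsmul, sub_eq_zero] at h1
  exact h1.symm

theorem isUnit_natCast_of_not_dvd {T : Type*} [CommRing T] [IsLocalRing T] {p d : ℕ}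
    (hp : p.Prime) (hpT : (p : T) ∈ IsLocalRing.maximalIdeal T) (hd : ¬ p ∣ d) :
    IsUnit (d : T) := by
  have hcop : Nat.Coprime p d := (Nat.Prime.coprime_iff_not_dvd hp).mpr hd
  have hbez : (p : ℤ) * Nat.gcdA p d + (d : ℤ) * Nat.gcdB p d = 1 := by
    have := Nat.gcd_eq_gcd_ab p d
    rw [hcop] at this
    exact_mod_cast this.symm
  have h2 : (d : T) * ((Nat.gcdB p d : ℤ) : T) = 1 - (p : T) * ((Nat.gcdA p d : ℤ) : T) := by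
    have := congrArg (fun z : ℤ => (z : T)) hbez
    push_cast at this
    rw [← this]
    ring
  have h3 : IsUnit (1 - (p : T) * ((Nat.gcdA p d : ℤ) : T)) :=
    IsLocalRing.isUnit_one_sub_self_of_mem_nonunits _
      (by
        rw [← IsLocalRing.mem_maximalIdeal]
        exact Ideal.mul_mem_right _ _ hpT)
  rw [← h2] at h3
  exact isUnit_of_mul_isUnit_left h3

theorem map_mem_smul_top {T : Type*} [CommRing T] {V : Type*} [AddCommGroup V] [Module T V]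
    (f : V →ₗ[T] V) (I : Ideal T) {x : V} (hx : x ∈ I • (⊤ : Submodule T V)) :
    f x ∈ I • (⊤ : Submodule T V) := by
  refine Submodule.smul_induction_on (p := fun x => f x ∈ I • (⊤ : Submodule T V)) hx ?_ ?_
  · intro a ha w _
    rw [map_smul]
    exact Submodule.smul_mem_smul ha Submodule.mem_top
  · intro x y hx hy
    rw [map_add]
    exact Submodule.add_mem _ hx hy

/-- one finite level for the Galois orbits of all points of the image of a finitely generated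
group. -/
theorem exists_level_image {N : ℕ} [NeZero N] {Λ : Type*} [AddCommGroup Λ] [Module.Finite ℤ Λ]
    (Φ : Λ →+ JZero N) :
    ∃ L : IntermediateField ℚ Qb, FiniteDimensional ℚ L ∧
      ∀ σ : Qb ≃ₐ[ℚ] Qb, (∀ y ∈ L, σ y = y) →
        ∀ (x : Λ) (g : Qb ≃ₐ[ℚ] Qb), σ • g • Φ x = g • Φ x := by
  classical
  obtain ⟨s, hs⟩ := (Module.Finite.fg_top : (⊤ : Submodule ℤ Λ).FG)
  obtain ⟨L, hL, h⟩ := FinLevel.exists_level_orbit_finset N (s.image Φ)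
  refine ⟨L, hL, fun σ hσ x g => ?_⟩
  have gz : ∀ g : Qb ≃ₐ[ℚ] Qb, g • (0 : JZero N) = 0 := fun g => smul_zero (A := JZero N) g
  have hx : x ∈ AddSubgroup.closure (s : Set Λ) := by
    rw [← Submodule.span_int_eq_addSubgroupClosure, hs]
    exact AddSubgroup.mem_top x
  induction hx using AddSubgroup.closure_induction with
  | mem a ha => exact h σ hσ (Φ a) (Finset.mem_image_of_mem Φ ha) g
  | zero => rw [map_zero, gz, gz]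
  | add a b _ _ ha hb => rw [map_add, smul_add, smul_add, ha, hb]
  | neg a _ ha => rw [map_neg, smul_neg, smul_neg, ha]

/-! ### The Jacobian side -/

/-- On a `p`-power torsion point `y` whose Galois orbit is fixed by `(σ₁^m₁)⁻¹ h τ` and
`(σ₂^m₂)⁻¹ h`, the operators `D_{m₁}(T_{ℓ₁}, ℓ₁)` and `D_{m₂}(T_{ℓ₂}, ℓ₂)` agree. -/
theorem jside {N : ℕ} [NeZero N] {p : ℕ} (k : ℕ) (y : JZero N) (hy : p ^ k • y = 0)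
    {q : ℕ} (hq : q.Prime) (hqNp : ¬ q ∣ N * p) (P : ValuationSubring Qb)
    (hP : P.LiesOverPrime q) {τ : Qb ≃ₐ[ℚ] Qb} (hτ : τ ∈ P.inertiaSubgroupIn ℚ)
    {ℓ₁ : ℕ} (hℓ₁ : ℓ₁.Prime) (hℓ₁Np : ¬ ℓ₁ ∣ N * p) (A₁ : ValuationSubring Qb)
    (hA₁ : A₁.LiesOverPrime ℓ₁) {σ₁ : Qb ≃ₐ[ℚ] Qb} (hσ₁ : A₁.IsFrobeniusAt σ₁ ℓ₁)
    {ℓ₂ : ℕ} (hℓ₂ : ℓ₂.Prime) (hℓ₂Np : ¬ ℓ₂ ∣ N * p) (A₂ : ValuationSubring Qb)
    (hA₂ : A₂.LiesOverPrime ℓ₂) {σ₂ : Qb ≃ₐ[ℚ] Qb} (hσ₂ : A₂.IsFrobeniusAt σ₂ ℓ₂)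
    (h : Qb ≃ₐ[ℚ] Qb) (m₁ m₂ : ℕ)
    (hu₁ : ∀ g : Qb ≃ₐ[ℚ] Qb, ((σ₁ ^ m₁)⁻¹ * (h * τ)) • g • y = g • y)
    (hu₂ : ∀ g : Qb ≃ₐ[ℚ] Qb, ((σ₂ ^ m₂)⁻¹ * h) • g • y = g • y)
    (hmod : ℓ₁ ^ m₁ ≡ ℓ₂ ^ m₂ [MOD p ^ k]) :
    dick (heckeOperatorBar N ⟨ℓ₁, hℓ₁⟩) (ℓ₁ : ℤ) m₁ y =
      dick (heckeOperatorBar N ⟨ℓ₂, hℓ₂⟩) (ℓ₂ : ℤ) m₂ y := by
  have hy' : ∃ n : ℕ, p ^ n • y = 0 := ⟨k, hy⟩
  rw [TraceRec.dick_hecke_apply hℓ₁ hℓ₁Np A₁ hA₁ hσ₁ m₁ hy',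
    TraceRec.dick_hecke_apply hℓ₂ hℓ₂Np A₂ hA₂ hσ₂ m₂ hy']
  have a1 : σ₁ ^ m₁ • y = (h * τ) • y := by
    have h1 := hu₁ 1
    rw [one_smul] at h1
    calc σ₁ ^ m₁ • y = σ₁ ^ m₁ • (((σ₁ ^ m₁)⁻¹ * (h * τ)) • y) := by rw [h1]
      _ = (h * τ) • y := by rw [← mul_smul, mul_inv_cancel_left]
  have a2 : (h * τ) • y = h • y := by
    rw [mul_smul, C1.inertia_smul hq hqNp P hP hτ hy']
  have b1 : (σ₁ ^ m₁)⁻¹ • y = (h * τ)⁻¹ • y := by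
    have h1 := hu₁ (h * τ)⁻¹
    rw [← mul_smul, mul_assoc, mul_inv_cancel, mul_one] at h1
    exact h1
  have b2 : (h * τ)⁻¹ • y = h⁻¹ • y := by
    rw [mul_inv_rev, mul_smul,
      C1.inertia_smul hq hqNp P hP (inv_mem hτ) (C1.tors_smul h⁻¹ hy')]
  have c1 : σ₂ ^ m₂ • y = h • y := by
    have h1 := hu₂ 1
    rw [one_smul] at h1
    calc σ₂ ^ m₂ • y = σ₂ ^ m₂ • (((σ₂ ^ m₂)⁻¹ * h) • y) := by rw [h1]
      _ = h • y := by rw [← mul_smul, mul_inv_cancel_left]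
  have d1 : (σ₂ ^ m₂)⁻¹ • y = h⁻¹ • y := by
    have h1 := hu₂ h⁻¹
    rw [← mul_smul, mul_assoc, mul_inv_cancel, mul_one] at h1
    exact h1
  rw [a1, a2, b1, b2, c1, d1]
  congr 1
  refine nsmul_eq_of_modEq hmod ?_
  rw [smul_comm, hy]
  exact smul_zero (A := JZero N) h⁻¹

/-! ### The main congruence and the result -/

section Main

variable {p : ℕ} {N : ℕ} [NeZero N] {S : Finset ℕ}
  {𝒪 : Type} [CommRing 𝒪] [IsDomain 𝒪] [IsDiscreteValuationRing 𝒪]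
  [IsAdicComplete (IsLocalRing.maximalIdeal 𝒪) 𝒪]
  {θ : CuspForm.heckeAlgebra N 2 (↑S : Set ℕ) →+* IsLocalRing.ResidueField 𝒪}
  {T : Type} [CommRing T] [IsLocalRing T] [IsNoetherianRing T]
  [IsAdicComplete (IsLocalRing.maximalIdeal T) T] [Algebra 𝒪 T] [IsLocalHom (algebraMap 𝒪 T)]
  [Module.Finite 𝒪 T] [Module.Free 𝒪 T]

/-- coercion of `dick` from the Hecke algebra to endomorphisms. -/
theorem coe_dick (t : CuspForm.heckeAlgebra N 2 (↑S : Set ℕ)) (d : ℤ) (m : ℕ) :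
    ((dick t d m : CuspForm.heckeAlgebra N 2 (↑S : Set ℕ)) :
      Module.End ℂ (CuspForm (CongruenceSubgroup.Gamma0 N) 2)) =
      dick (t : Module.End ℂ (CuspForm (CongruenceSubgroup.Gamma0 N) 2)) d m := by
  induction m using Nat.strong_induction_on with
  | _ m ih =>
    match m with
    | 0 => rfl
    | 1 => rfl
    | (m + 2) =>
      rw [dick_succ_succ, dick_succ_succ, ← ih (m + 1) (by omega), ← ih m (by omega)]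
      rfl

/-- **The key congruence**: `tr ρ(h τ) ≡ tr ρ(h)` modulo every power of the maximal ideal. -/
theorem trace_sub_mem (hLat : LatticeStmt) (hCheb : ChebStmt) (hp : p.Prime)
    (hp𝒪 : (p : 𝒪) ∈ IsLocalRing.maximalIdeal 𝒪) (hpS : p ∈ S)
    (hNS : ∀ q : ℕ, q.Prime → q ∣ N → q ∈ S)
    (H : CuspForm.HeckeGaloisRepDatum N (↑S : Set ℕ) 𝒪 θ T)
    (q : ℕ) (hq : q.Prime) (hqS : q ∉ S) (P : ValuationSubring Qb) (hP : P.LiesOverPrime q)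
    (τ : Qb ≃ₐ[ℚ] Qb) (hτ : τ ∈ P.inertiaSubgroupIn ℚ) (h : Qb ≃ₐ[ℚ] Qb) (n : ℕ) :
    LinearMap.trace T H.ρ.V (H.ρ.ρ (h * τ)) - LinearMap.trace T H.ρ.V (H.ρ.ρ h) ∈
      IsLocalRing.maximalIdeal T ^ n := by
  classical
  have hpT : (p : T) ∈ IsLocalRing.maximalIdeal T := by
    have e : (p : T) = algebraMap 𝒪 T (p : 𝒪) := (map_natCast _ p).symm
    rw [e]
    exact map_nonunit (algebraMap 𝒪 T) (p : 𝒪) hp𝒪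
  have hqN : ¬ q ∣ N := fun hd => hqS (hNS q hq hd)
  have hqp : q ≠ p := fun e => hqS (e ▸ hpS)
  have hqNp : ¬ q ∣ N * p := fun hd =>
    (hq.dvd_mul.mp hd).elim hqN (fun hd' => hqp ((Nat.prime_dvd_prime_iff_eq hq hp).mp hd'))
  obtain ⟨Λ, _, _, _, tr, E, _, _, trE, j, ι, hι, hspan, hj, hT, hΦ⟩ := hLat N p hp
  obtain ⟨c, hbridge⟩ := Lattice.bridge (S := (↑S : Set ℕ)) (p := p) hp hι hspan hj hT
  obtain ⟨Φ, hΦtor, hΦker, hΦeq⟩ := hΦ (n + c)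
  obtain ⟨L₁, hL₁fin, hL₁⟩ := H.ρ.isAdicContinuous n
  obtain ⟨L₂, hL₂fin, hL₂⟩ := exists_level_image Φ
  have hne : NeZero (p ^ (n + c)) := ⟨pow_ne_zero _ hp.ne_zero⟩
  obtain ⟨ζ, hζ⟩ := HasEnoughRootsOfUnity.exists_primitiveRoot Qb (p ^ (n + c))
  have hL₃fin : FiniteDimensional ℚ (IntermediateField.adjoin ℚ {ζ}) :=
    IntermediateField.adjoin.finiteDimensional
      ((hζ.isIntegral (pow_pos hp.pos _)).tower_top (R := ℤ) (A := ℚ))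
  have hLfin : FiniteDimensional ℚ ↥(L₁ ⊔ L₂ ⊔ IntermediateField.adjoin ℚ {ζ}) := inferInstance
  have hL₁L : L₁ ≤ L₁ ⊔ L₂ ⊔ IntermediateField.adjoin ℚ {ζ} := le_sup_of_le_left le_sup_left
  have hL₂L : L₂ ≤ L₁ ⊔ L₂ ⊔ IntermediateField.adjoin ℚ {ζ} := le_sup_of_le_left le_sup_right
  have hζL : ζ ∈ L₁ ⊔ L₂ ⊔ IntermediateField.adjoin ℚ {ζ} :=
    (le_sup_right : IntermediateField.adjoin ℚ {ζ} ≤ _) (IntermediateField.mem_adjoin_simple_self ℚ ζ)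
  obtain ⟨ℓ₁, A₁, σ₁, m₁, hℓ₁, hℓ₁S, hA₁, hσ₁, hag₁⟩ := hCheb _ hLfin S (h * τ)
  obtain ⟨ℓ₂, A₂, σ₂, m₂, hℓ₂, hℓ₂S, hA₂, hσ₂, hag₂⟩ := hCheb _ hLfin S h
  have hℓ₁N : ¬ ℓ₁ ∣ N := fun hd => hℓ₁S (hNS ℓ₁ hℓ₁ hd)
  have hℓ₁p : ℓ₁ ≠ p := fun e => hℓ₁S (e ▸ hpS)
  have hℓ₁Np : ¬ ℓ₁ ∣ N * p := fun hd =>
    (hℓ₁.dvd_mul.mp hd).elim hℓ₁N (fun hd' => hℓ₁p ((Nat.prime_dvd_prime_iff_eq hℓ₁ hp).mp hd'))
  have hℓ₂N : ¬ ℓ₂ ∣ N := fun hd => hℓ₂S (hNS ℓ₂ hℓ₂ hd)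
  have hℓ₂p : ℓ₂ ≠ p := fun e => hℓ₂S (e ▸ hpS)
  have hℓ₂Np : ¬ ℓ₂ ∣ N * p := fun hd =>
    (hℓ₂.dvd_mul.mp hd).elim hℓ₂N (fun hd' => hℓ₂p ((Nat.prime_dvd_prime_iff_eq hℓ₂ hp).mp hd'))
  have hℓ₁S' : ℓ₁ ∉ (↑S : Set ℕ) := fun hm => hℓ₁S (Finset.mem_coe.mp hm)
  have hℓ₂S' : ℓ₂ ∉ (↑S : Set ℕ) := fun hm => hℓ₂S (Finset.mem_coe.mp hm)
  -- the two elements fixing the level field
  have hu₁ : ∀ x ∈ L₁ ⊔ L₂ ⊔ IntermediateField.adjoin ℚ {ζ}, ((σ₁ ^ m₁)⁻¹ * (h * τ)) x = x := by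
    intro x hx
    rw [AlgEquiv.mul_apply, hag₁ x hx, ← AlgEquiv.mul_apply, inv_mul_cancel, AlgEquiv.one_apply]
  have hu₂ : ∀ x ∈ L₁ ⊔ L₂ ⊔ IntermediateField.adjoin ℚ {ζ}, ((σ₂ ^ m₂)⁻¹ * h) x = x := by
    intro x hx
    rw [AlgEquiv.mul_apply, hag₂ x hx, ← AlgEquiv.mul_apply, inv_mul_cancel, AlgEquiv.one_apply]
  -- congruence of the exponents
  have hmod : ℓ₁ ^ m₁ ≡ ℓ₂ ^ m₂ [MOD p ^ (n + c)] :=
    CycPow.modEq_of_agree hp (n + c) hζ hq hqp P hP hτ hℓ₁ hℓ₁p A₁ hA₁ hσ₁ hℓ₂ hℓ₂p A₂ hA₂ hσ₂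
      h m₁ m₂ (hag₁ ζ hζL) (hag₂ ζ hζL)
  -- divisibility on the lattice
  have hdiv : ∀ x : Λ, ∃ y : Λ,
      (dick (tr ⟨ℓ₁, hℓ₁⟩ hℓ₁N) ((ℓ₁ : ℕ) : ℤ) m₁ - dick (tr ⟨ℓ₂, hℓ₂⟩ hℓ₂N) ((ℓ₂ : ℕ) : ℤ) m₂) x
        = (p ^ (n + c)) • y := by
    intro x
    apply hΦker
    rw [LinearMap.sub_apply, map_sub,
      ← TraceRec.dick_intertwine Φ _ _ (hΦeq ⟨ℓ₁, hℓ₁⟩ hℓ₁N hℓ₁p),
      ← TraceRec.dick_intertwine Φ _ _ (hΦeq ⟨ℓ₂, hℓ₂⟩ hℓ₂N hℓ₂p), sub_eq_zero]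
    exact jside (n + c) (Φ x) (hΦtor x) hq hqNp P hP hτ hℓ₁ hℓ₁Np A₁ hA₁ hσ₁ hℓ₂ hℓ₂Np A₂ hA₂ hσ₂
      h m₁ m₂ (fun g => hL₂ _ (fun y hy => hu₁ y (hL₂L hy)) x g)
      (fun g => hL₂ _ (fun y hy => hu₂ y (hL₂L hy)) x g) hmod
  obtain ⟨d', t, hd', ht, heq⟩ :=
    hbridge n ⟨ℓ₁, hℓ₁⟩ ⟨ℓ₂, hℓ₂⟩ hℓ₁N hℓ₂N hℓ₁S' hℓ₂S' m₁ m₂ hdiv
  -- the identity in the Hecke algebra
  have heq' : d' • (dick (heckeAlgebra.T (k := 2) hℓ₁ hℓ₁N hℓ₁S') ((ℓ₁ : ℕ) : ℤ) m₁ -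
      dick (heckeAlgebra.T (k := 2) hℓ₂ hℓ₂N hℓ₂S') ((ℓ₂ : ℕ) : ℤ) m₂) =
      p ^ n • (⟨t, ht⟩ : CuspForm.heckeAlgebra N 2 (↑S : Set ℕ)) := by
    apply Subtype.ext
    have e1 : ((d' • (dick (heckeAlgebra.T (k := 2) hℓ₁ hℓ₁N hℓ₁S') ((ℓ₁ : ℕ) : ℤ) m₁ -
        dick (heckeAlgebra.T (k := 2) hℓ₂ hℓ₂N hℓ₂S') ((ℓ₂ : ℕ) : ℤ) m₂) :
        CuspForm.heckeAlgebra N 2 (↑S : Set ℕ)) :
        Module.End ℂ (CuspForm (CongruenceSubgroup.Gamma0 N) 2)) =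
        d' • (dick (heckeTLin 2 hℓ₁ hℓ₁N) ((ℓ₁ : ℕ) : ℤ) m₁ -
          dick (heckeTLin 2 hℓ₂ hℓ₂N) ((ℓ₂ : ℕ) : ℤ) m₂) := by
      rw [← heckeAlgebra.coe_T (S := (↑S : Set ℕ)) hℓ₁ hℓ₁N hℓ₁S',
        ← heckeAlgebra.coe_T (S := (↑S : Set ℕ)) hℓ₂ hℓ₂N hℓ₂S', ← coe_dick, ← coe_dick]
      rfl
    rw [e1, heq]
    rfl
  have hπ : H.π (dick (heckeAlgebra.T (k := 2) hℓ₁ hℓ₁N hℓ₁S') ((ℓ₁ : ℕ) : ℤ) m₁ -
      dick (heckeAlgebra.T (k := 2) hℓ₂ hℓ₂N hℓ₂S') ((ℓ₂ : ℕ) : ℤ) m₂) ∈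
      IsLocalRing.maximalIdeal T ^ n := by
    have h1 := congrArg H.π heq'
    rw [map_nsmul, map_nsmul, nsmul_eq_mul, nsmul_eq_mul] at h1
    have hu : IsUnit (d' : T) := isUnit_natCast_of_not_dvd hp hpT hd'
    have h2 : ((p ^ n : ℕ) : T) * H.π ⟨t, ht⟩ ∈ IsLocalRing.maximalIdeal T ^ n := by
      rw [Nat.cast_pow]
      exact Ideal.mul_mem_right _ _ (Ideal.pow_mem_pow hpT n)
    rw [← h1] at h2
    exact (Ideal.unit_mul_mem_iff_mem _ hu).mp h2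
  -- the traces
  have htr₁ : LinearMap.trace T H.ρ.V (H.ρ.ρ (σ₁ ^ m₁)) =
      H.π (dick (heckeAlgebra.T (k := 2) hℓ₁ hℓ₁N hℓ₁S') ((ℓ₁ : ℕ) : ℤ) m₁) := by
    rw [map_pow, Dickson.trace_pow H.ρ.finrank_eq (H.ρ.ρ σ₁)
      (H.π (heckeAlgebra.T (k := 2) hℓ₁ hℓ₁N hℓ₁S')) ((ℓ₁ : ℕ) : ℤ)
      (by rw [Int.cast_natCast]; exact H.charpoly_frob ℓ₁ hℓ₁ hℓ₁N hℓ₁S' A₁ hA₁ σ₁ hσ₁) m₁,
      map_dick]
  have htr₂ : LinearMap.trace T H.ρ.V (H.ρ.ρ (σ₂ ^ m₂)) =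
      H.π (dick (heckeAlgebra.T (k := 2) hℓ₂ hℓ₂N hℓ₂S') ((ℓ₂ : ℕ) : ℤ) m₂) := by
    rw [map_pow, Dickson.trace_pow H.ρ.finrank_eq (H.ρ.ρ σ₂)
      (H.π (heckeAlgebra.T (k := 2) hℓ₂ hℓ₂N hℓ₂S')) ((ℓ₂ : ℕ) : ℤ)
      (by rw [Int.cast_natCast]; exact H.charpoly_frob ℓ₂ hℓ₂ hℓ₂N hℓ₂S' A₂ hA₂ σ₂ hσ₂) m₂,
      map_dick]
  have hc₁ : LinearMap.trace T H.ρ.V (H.ρ.ρ (h * τ)) -
      LinearMap.trace T H.ρ.V (H.ρ.ρ (σ₁ ^ m₁)) ∈ IsLocalRing.maximalIdeal T ^ n := by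
    apply Dickson.trace_sub_mem
    intro v
    have e : H.ρ.ρ (h * τ) v - H.ρ.ρ (σ₁ ^ m₁) v =
        H.ρ.ρ (σ₁ ^ m₁) (H.ρ.ρ ((σ₁ ^ m₁)⁻¹ * (h * τ)) v - v) := by
      rw [map_sub, ← Module.End.mul_apply, ← map_mul, mul_inv_cancel_left]
    rw [e]
    exact map_mem_smul_top _ _ (hL₁ _ (fun y hy => hu₁ y (hL₁L hy)) v)
  have hc₂ : LinearMap.trace T H.ρ.V (H.ρ.ρ h) -
      LinearMap.trace T H.ρ.V (H.ρ.ρ (σ₂ ^ m₂)) ∈ IsLocalRing.maximalIdeal T ^ n := by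
    apply Dickson.trace_sub_mem
    intro v
    have e : H.ρ.ρ h v - H.ρ.ρ (σ₂ ^ m₂) v =
        H.ρ.ρ (σ₂ ^ m₂) (H.ρ.ρ ((σ₂ ^ m₂)⁻¹ * h) v - v) := by
      rw [map_sub, ← Module.End.mul_apply, ← map_mul, mul_inv_cancel_left]
    rw [e]
    exact map_mem_smul_top _ _ (hL₁ _ (fun y hy => hu₂ y (hL₁L hy)) v)
  have hsplit : LinearMap.trace T H.ρ.V (H.ρ.ρ (h * τ)) - LinearMap.trace T H.ρ.V (H.ρ.ρ h) =
      (LinearMap.trace T H.ρ.V (H.ρ.ρ (h * τ)) - LinearMap.trace T H.ρ.V (H.ρ.ρ (σ₁ ^ m₁))) +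
      H.π (dick (heckeAlgebra.T (k := 2) hℓ₁ hℓ₁N hℓ₁S') ((ℓ₁ : ℕ) : ℤ) m₁ -
        dick (heckeAlgebra.T (k := 2) hℓ₂ hℓ₂N hℓ₂S') ((ℓ₂ : ℕ) : ℤ) m₂) -
      (LinearMap.trace T H.ρ.V (H.ρ.ρ h) - LinearMap.trace T H.ρ.V (H.ρ.ρ (σ₂ ^ m₂))) := by
    rw [htr₁, htr₂, map_sub]
    ring
  rw [hsplit]
  exact Ideal.sub_mem _ (Ideal.add_mem _ hc₁ hπ) hc₂

/-- **S31 from the interface**: the frozen statement of S31 follows from `LatticeStmt` and the weak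
Chebotarev statement `S29.ChebStmt`. -/
theorem result_of_iface (hLat : LatticeStmt) (hCheb : ChebStmt) (hp : p.Prime)
    (hp𝒪 : (p : 𝒪) ∈ IsLocalRing.maximalIdeal 𝒪) (hpS : p ∈ S)
    (hNS : ∀ q : ℕ, q.Prime → q ∣ N → q ∈ S)
    (H : CuspForm.HeckeGaloisRepDatum N (↑S : Set ℕ) 𝒪 θ T)
    (q : ℕ) (hq : q.Prime) (hqS : q ∉ S) :
    H.ρ.IsUnramifiedAt q := by
  intro P hP τ hτ
  apply TraceRigid.eq_one_of_trace H.ρ H.residual_absIrr τ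
  intro h
  have hmem : ∀ n : ℕ, LinearMap.trace T H.ρ.V (H.ρ.ρ (h * τ)) -
      LinearMap.trace T H.ρ.V (H.ρ.ρ h) ∈ IsLocalRing.maximalIdeal T ^ n :=
    fun n => trace_sub_mem hLat hCheb hp hp𝒪 hpS hNS H q hq hqS P hP τ hτ h n
  have hbot : (⨅ i : ℕ, IsLocalRing.maximalIdeal T ^ i) = ⊥ :=
    Ideal.iInf_pow_eq_bot_of_isLocalRing _ (Ideal.IsMaximal.ne_top inferInstance)
  have h0 : LinearMap.trace T H.ρ.V (H.ρ.ρ (h * τ)) - LinearMap.trace T H.ρ.V (H.ρ.ρ h) ∈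
      (⊥ : Ideal T) := by
    rw [← hbot]
    exact (Ideal.mem_iInf).mpr hmem
  exact sub_eq_zero.mp ((Ideal.mem_bot).mp h0)

end Main

end Fermat.Agent.S31.Top
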