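/-
S31 (wave 9b), algebra leaf: Burnside's theorem in dimension 2 and the trace criterion.

* `Burnside.adjoin_eq_top`: a subalgebra of `M₂(K)`, `K` algebraically closed, without a common
  eigenvector is everything.
* `Burnside.eq_zero_of_trace_mul_eq_zero`: dual form for a monoid of matrices.
* `Burnside.span_eq_top_of_residue`, `Burnside.eq_zero_of_trace_local`: over a local ring, if the
  residual matrices have no common eigenvector over the algebraic closure of the residue field, the
  matrices span `M₂(T)` and the trace form detects `0`.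
* `Burnside.rho_eq_one_of_trace`: for a frozen `GaloisRepAdic T` with absolutely irreducible
  residual representation, `tr ρ(g τ) = tr ρ(g)` for all `g` implies `ρ(τ) = 1`.
-/
import Mathlib
import Fermat.Prelude.Def_GaloisRep_Adic

set_option autoImplicit false

noncomputable section

open Matrix

namespace Fermat.Agent.S31.Burnside

/-! ### The plane over a field -/

section Field

variable {K : Type*} [Field K]

/-- In the plane, `u ≠ 0` and a vector `w` which is not a multiple of `u` span everything. -/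
theorem exists_combo {u w : Fin 2 → K} (hu : u ≠ 0) (hw : ¬ ∃ c : K, w = c • u)
    (t : Fin 2 → K) : ∃ a b : K, t = a • u + b • w := by
  have hdet : u 0 * w 1 - u 1 * w 0 ≠ 0 := by
    intro h0
    apply hw
    by_cases h : u 0 = 0
    · have h1 : u 1 ≠ 0 := by
        intro h1
        apply hu
        funext i
        fin_cases i
        · exact h
        · exact h1
      have hw0 : w 0 = 0 := by
        rw [h, zero_mul, zero_sub, neg_eq_zero] at h0
        exact (mul_eq_zero.mp h0).resolve_left h1
      refine ⟨w 1 / u 1, ?_⟩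
      funext i
      fin_cases i
      · show w 0 = w 1 / u 1 * u 0
        rw [hw0, h, mul_zero]
      · show w 1 = w 1 / u 1 * u 1
        rw [div_mul_cancel₀ _ h1]
    · refine ⟨w 0 / u 0, ?_⟩
      funext i
      fin_cases i
      · show w 0 = w 0 / u 0 * u 0
        rw [div_mul_cancel₀ _ h]
      · show w 1 = w 0 / u 0 * u 1
        field_simp
        linear_combination h0
  refine ⟨(t 0 * w 1 - t 1 * w 0) / (u 0 * w 1 - u 1 * w 0),
    (u 0 * t 1 - u 1 * t 0) / (u 0 * w 1 - u 1 * w 0), ?_⟩
  funext i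
  fin_cases i
  · show t 0 = (t 0 * w 1 - t 1 * w 0) / (u 0 * w 1 - u 1 * w 0) * u 0
      + (u 0 * t 1 - u 1 * t 0) / (u 0 * w 1 - u 1 * w 0) * w 0
    rw [div_mul_eq_mul_div, div_mul_eq_mul_div, ← add_div, eq_div_iff hdet]
    ring
  · show t 1 = (t 0 * w 1 - t 1 * w 0) / (u 0 * w 1 - u 1 * w 0) * u 1
      + (u 0 * t 1 - u 1 * t 0) / (u 0 * w 1 - u 1 * w 0) * w 1
    rw [div_mul_eq_mul_div, div_mul_eq_mul_div, ← add_div, eq_div_iff hdet]
    ring

/-- A matrix killing every vector is zero. -/
theorem eq_zero_of_forall_mulVec {R : Type*} [CommRing R] {M : Matrix (Fin 2) (Fin 2) R}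
    (h : ∀ z : Fin 2 → R, M *ᵥ z = 0) : M = 0 := by
  ext i j
  have := congrFun (h (Pi.single j 1)) i
  simpa using this

/-- **Burnside's theorem in dimension 2.** -/
theorem adjoin_eq_top [IsAlgClosed K] (𝒜 : Subalgebra K (Matrix (Fin 2) (Fin 2) K))
    (hirr : ∀ v : Fin 2 → K, v ≠ 0 → ∃ s ∈ 𝒜, ¬ ∃ c : K, s *ᵥ v = c • v) : 𝒜 = ⊤ := by
  -- transitivity on nonzero vectors
  have htrans : ∀ u : Fin 2 → K, u ≠ 0 → ∀ t : Fin 2 → K, ∃ b ∈ 𝒜, b *ᵥ u = t := by
    intro u hu t
    obtain ⟨s, hs, hsu⟩ := hirr u hu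
    obtain ⟨a, b, hab⟩ := exists_combo hu hsu t
    refine ⟨a • (1 : Matrix (Fin 2) (Fin 2) K) + b • s,
      𝒜.add_mem (𝒜.smul_mem 𝒜.one_mem a) (𝒜.smul_mem hs b), ?_⟩
    rw [add_mulVec, smul_mulVec, smul_mulVec, one_mulVec, hab]
  -- an element of `𝒜` which is not a scalar
  have he0 : (Pi.single 0 1 : Fin 2 → K) ≠ 0 := by
    intro h
    have := congrFun h 0
    simp at this
  obtain ⟨s0, hs0, hs0v⟩ := hirr _ he0
  -- an eigenvector of `s0`
  obtain ⟨μ, hμ⟩ := Module.End.exists_eigenvalue (Matrix.toLin' s0)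
  obtain ⟨v, hv⟩ := hμ.exists_hasEigenvector
  have hv0 : v ≠ 0 := hv.2
  have hsv : s0 *ᵥ v = μ • v := by
    have := hv.apply_eq_smul
    rwa [Matrix.toLin'_apply] at this
  set a : Matrix (Fin 2) (Fin 2) K := s0 - μ • 1 with ha
  have haA : a ∈ 𝒜 := 𝒜.sub_mem hs0 (𝒜.smul_mem 𝒜.one_mem μ)
  have hav : a *ᵥ v = 0 := by
    rw [ha, sub_mulVec, smul_mulVec, one_mulVec, hsv, sub_self]
  have ha0 : ∃ w0 : Fin 2 → K, a *ᵥ w0 ≠ 0 := by
    by_contra hcon
    push Not at hcon
    have h0 : a = 0 := eq_zero_of_forall_mulVec hcon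
    apply hs0v
    refine ⟨μ, ?_⟩
    have h1 : s0 = μ • 1 := sub_eq_zero.mp h0
    rw [h1, smul_mulVec, one_mulVec]
  obtain ⟨w0, hw0⟩ := ha0
  have hw0v : ¬ ∃ c : K, w0 = c • v := by
    rintro ⟨c, rfl⟩
    apply hw0
    rw [mulVec_smul, hav, smul_zero]
  -- the annihilator of `v` lies in `𝒜`
  have hann : ∀ x : Matrix (Fin 2) (Fin 2) K, x *ᵥ v = 0 → x ∈ 𝒜 := by
    intro x hx
    obtain ⟨b, hb, hbu⟩ := htrans (a *ᵥ w0) hw0 (x *ᵥ w0)
    have hxb : x = b * a := by
      rw [← sub_eq_zero]
      apply eq_zero_of_forall_mulVec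
      intro z
      obtain ⟨α, β, rfl⟩ := exists_combo hv0 hw0v z
      rw [sub_mulVec, mulVec_add, mulVec_add, mulVec_smul, mulVec_smul, mulVec_smul, mulVec_smul,
        ← mulVec_mulVec, ← mulVec_mulVec, hx, hav, mulVec_zero, hbu]
      simp
    rw [hxb]
    exact 𝒜.mul_mem hb haA
  rw [eq_top_iff]
  intro y _
  obtain ⟨b, hb, hbv⟩ := htrans v hv0 (y *ᵥ v)
  have h1 : y - b ∈ 𝒜 := hann _ (by rw [sub_mulVec, hbv, sub_self])
  have h2 : y = (y - b) + b := by abel
  rw [h2]
  exact 𝒜.add_mem h1 hb

/-- Dual form of Burnside's theorem for a monoid of matrices without a common eigenvector. -/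
theorem eq_zero_of_trace_mul_eq_zero [IsAlgClosed K] {G : Type*} [Monoid G]
    (R : G →* Matrix (Fin 2) (Fin 2) K)
    (hirr : ∀ v : Fin 2 → K, v ≠ 0 → ∃ g, ¬ ∃ c : K, R g *ᵥ v = c • v)
    (E : Matrix (Fin 2) (Fin 2) K) (hE : ∀ g, (R g * E).trace = 0) : E = 0 := by
  have htop : Algebra.adjoin K (Set.range R) = ⊤ := adjoin_eq_top _ (fun v hv => by
    obtain ⟨g, hg⟩ := hirr v hv
    exact ⟨R g, Algebra.subset_adjoin ⟨g, rfl⟩, hg⟩)
  have hcl : (Submonoid.closure (Set.range R) : Set (Matrix (Fin 2) (Fin 2) K)) = Set.range R := by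
    rw [← MonoidHom.coe_mrange, Submonoid.closure_eq]
  have hall : ∀ y : Matrix (Fin 2) (Fin 2) K, (y * E).trace = 0 := by
    intro y
    have hy' : y ∈ Algebra.adjoin K (Set.range R) := by
      rw [htop]
      exact Algebra.mem_top
    have hy : y ∈ Submodule.span K (Set.range R) := by
      rw [← Subalgebra.mem_toSubmodule, Algebra.adjoin_eq_span, hcl] at hy'
      exact hy'
    clear hy'
    induction hy using Submodule.span_induction with
    | mem x hx =>
      obtain ⟨g, rfl⟩ := hx
      exact hE g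
    | zero => rw [zero_mul, trace_zero]
    | add x y _ _ hx hy => rw [add_mul, trace_add, hx, hy, add_zero]
    | smul c x _ hx => rw [smul_mul_assoc, trace_smul, hx, smul_zero]
  exact Matrix.ext_iff_trace_mul_left.mpr (fun y => by rw [hall y, mul_zero, trace_zero])

end Field

/-! ### Descent to a subfield and lifting to a local ring -/

section Descent

variable {k : Type*} [Field k] (K : Type*) [Field K] [IsAlgClosed K] [Algebra k K]

/-- The dual form of Burnside's theorem over a field `k`, when the matrices have no common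
eigenvector over an algebraically closed extension `K`. -/
theorem eq_zero_of_trace_mul_eq_zero_of_map {G : Type*} [Monoid G]
    (R : G →* Matrix (Fin 2) (Fin 2) k)
    (hirr : ∀ v : Fin 2 → K, v ≠ 0 → ∃ g, ¬ ∃ c : K, (R g).map (algebraMap k K) *ᵥ v = c • v)
    (E : Matrix (Fin 2) (Fin 2) k) (hE : ∀ g, (R g * E).trace = 0) : E = 0 := by
  set RK : G →* Matrix (Fin 2) (Fin 2) K :=
    ((algebraMap k K).mapMatrix (m := Fin 2)).toMonoidHom.comp R with hRK
  have hRKapp : ∀ g, RK g = (R g).map (algebraMap k K) := fun g => rfl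
  have h1 : E.map (algebraMap k K) = 0 := by
    refine eq_zero_of_trace_mul_eq_zero RK (fun v hv => ?_) _ (fun g => ?_)
    · obtain ⟨g, hg⟩ := hirr v hv
      exact ⟨g, hg⟩
    · rw [hRKapp, ← Matrix.map_mul, ← AddMonoidHom.map_trace (algebraMap k K), hE g, map_zero]
  ext i j
  have h2 := congrFun (congrFun h1 i) j
  rw [Matrix.map_apply, Matrix.zero_apply] at h2
  rw [Matrix.zero_apply]
  exact (map_eq_zero (algebraMap k K)).mp h2

/-- The matrices span `M₂(k)`. -/
theorem span_eq_top_of_map {G : Type*} [Monoid G] (R : G →* Matrix (Fin 2) (Fin 2) k)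
    (hirr : ∀ v : Fin 2 → K, v ≠ 0 → ∃ g, ¬ ∃ c : K, (R g).map (algebraMap k K) *ᵥ v = c • v) :
    Submodule.span k (Set.range R) = ⊤ := by
  by_contra hne
  obtain ⟨f, hf0, hf⟩ := Submodule.exists_le_ker_of_lt_top _ (lt_top_iff_ne_top.mpr hne)
  set E : Matrix (Fin 2) (Fin 2) k := Matrix.of fun i j => f (Matrix.single j i 1) with hEdef
  have hfE : ∀ x : Matrix (Fin 2) (Fin 2) k, f x = (x * E).trace := by
    intro x
    have hs : ∀ i j : Fin 2, f (Matrix.single i j (x i j)) = x i j * f (Matrix.single i j 1) := by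
      intro i j
      have : Matrix.single i j (x i j) = x i j • Matrix.single i j (1 : k) := by
        rw [Matrix.smul_single, smul_eq_mul, mul_one]
      rw [this, map_smul, smul_eq_mul]
    conv_lhs => rw [Matrix.matrix_eq_sum_single x]
    rw [map_sum]
    simp only [map_sum, hs]
    simp only [Matrix.trace, Matrix.diag_apply, Matrix.mul_apply, hEdef, Matrix.of_apply,
      Fin.sum_univ_two]
  have hE0 : E = 0 := eq_zero_of_trace_mul_eq_zero_of_map K R hirr E (fun g => by
    rw [← hfE]
    exact hf (Submodule.subset_span ⟨g, rfl⟩))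
  apply hf0
  ext x
  rw [hfE, hE0, mul_zero, trace_zero, LinearMap.zero_apply]

end Descent

section Local

variable {T : Type*} [CommRing T] [IsLocalRing T]

/-- Nakayama: if the residual matrices span `M₂(k)`, the matrices span `M₂(T)`. -/
theorem span_eq_top_of_residue {G : Type*} [Monoid G] (R : G →* Matrix (Fin 2) (Fin 2) T)
    (h : Submodule.span (IsLocalRing.ResidueField T)
      (Set.range fun g => (R g).map (IsLocalRing.residue T)) = ⊤) :
    Submodule.span T (Set.range R) = ⊤ := by
  -- every residual matrix lifts to the span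
  have hlift : ∀ Y : Matrix (Fin 2) (Fin 2) (IsLocalRing.ResidueField T),
      ∃ X ∈ Submodule.span T (Set.range R), X.map (IsLocalRing.residue T) = Y := by
    intro Y
    have hY : Y ∈ Submodule.span (IsLocalRing.ResidueField T)
        (Set.range fun g => (R g).map (IsLocalRing.residue T)) := by
      rw [h]
      exact Submodule.mem_top
    induction hY using Submodule.span_induction with
    | mem x hx =>
      obtain ⟨g, rfl⟩ := hx
      exact ⟨R g, Submodule.subset_span ⟨g, rfl⟩, rfl⟩
    | zero => exact ⟨0, Submodule.zero_mem _, by ext i j; simp⟩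
    | add x y _ _ hx hy =>
      obtain ⟨X, hX, rfl⟩ := hx
      obtain ⟨Y', hY', rfl⟩ := hy
      exact ⟨X + Y', Submodule.add_mem _ hX hY', by ext i j; simp⟩
    | smul c x _ hx =>
      obtain ⟨X, hX, rfl⟩ := hx
      obtain ⟨c', rfl⟩ := IsLocalRing.residue_surjective c
      exact ⟨c' • X, Submodule.smul_mem _ _ hX, by ext i j; simp⟩
  rw [eq_top_iff]
  refine Submodule.le_of_le_smul_of_le_jacobson_bot (I := IsLocalRing.maximalIdeal T)
    Module.Finite.fg_top (IsLocalRing.maximalIdeal_le_jacobson ⊥) ?_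
  intro X _
  obtain ⟨X', hX', hXX'⟩ := hlift (X.map (IsLocalRing.residue T))
  have hmem : X - X' ∈ IsLocalRing.maximalIdeal T • (⊤ : Submodule T (Matrix (Fin 2) (Fin 2) T)) := by
    have hentry : ∀ i j, (X - X') i j ∈ IsLocalRing.maximalIdeal T := by
      intro i j
      have h1 := congrFun (congrFun hXX' i) j
      rw [Matrix.map_apply, Matrix.map_apply] at h1
      rw [Matrix.sub_apply, ← IsLocalRing.residue_eq_zero_iff, map_sub, h1, sub_self]
    rw [Matrix.matrix_eq_sum_single (X - X')]
    refine Submodule.sum_mem _ fun i _ => Submodule.sum_mem _ fun j _ => ?_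
    have : Matrix.single i j ((X - X') i j) = (X - X') i j • Matrix.single i j (1 : T) := by
      rw [Matrix.smul_single, smul_eq_mul, mul_one]
    rw [this]
    exact Submodule.smul_mem_smul (hentry i j) Submodule.mem_top
  have h2 : X = X' + (X - X') := by abel
  rw [h2]
  exact Submodule.add_mem _ (Submodule.mem_sup_left hX') (Submodule.mem_sup_right hmem)

omit [IsLocalRing T] in
/-- If the matrices span `M₂(T)`, the trace form detects zero. -/
theorem eq_zero_of_trace_of_span {G : Type*} [Monoid G] (R : G →* Matrix (Fin 2) (Fin 2) T)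
    (hspan : Submodule.span T (Set.range R) = ⊤) (E : Matrix (Fin 2) (Fin 2) T)
    (hE : ∀ g, (R g * E).trace = 0) : E = 0 := by
  have hall : ∀ y : Matrix (Fin 2) (Fin 2) T, (y * E).trace = 0 := by
    intro y
    have hy : y ∈ Submodule.span T (Set.range R) := by
      rw [hspan]
      exact Submodule.mem_top
    induction hy using Submodule.span_induction with
    | mem x hx =>
      obtain ⟨g, rfl⟩ := hx
      exact hE g
    | zero => rw [zero_mul, trace_zero]
    | add x y _ _ hx hy => rw [add_mul, trace_add, hx, hy, add_zero]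
    | smul c x _ hx => rw [smul_mul_assoc, trace_smul, hx, smul_zero]
  exact Matrix.ext_iff_trace_mul_left.mpr (fun y => by rw [hall y, mul_zero, trace_zero])

/-- **Trace criterion over a local ring**: if the residual matrices have no common eigenvector
over an algebraically closed extension `K` of the residue field, then `tr (R g * E) = 0` for all
`g` forces `E = 0`. -/
theorem eq_zero_of_trace_local (K : Type*) [Field K] [IsAlgClosed K]
    [Algebra (IsLocalRing.ResidueField T) K] {G : Type*} [Monoid G]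
    (R : G →* Matrix (Fin 2) (Fin 2) T)
    (hirr : ∀ v : Fin 2 → K, v ≠ 0 → ∃ g, ¬ ∃ c : K,
      ((R g).map (IsLocalRing.residue T)).map (algebraMap (IsLocalRing.ResidueField T) K) *ᵥ v
        = c • v)
    (E : Matrix (Fin 2) (Fin 2) T) (hE : ∀ g, (R g * E).trace = 0) : E = 0 := by
  set Rk : G →* Matrix (Fin 2) (Fin 2) (IsLocalRing.ResidueField T) :=
    ((IsLocalRing.residue T).mapMatrix (m := Fin 2)).toMonoidHom.comp R with hRk
  have h1 : Submodule.span (IsLocalRing.ResidueField T) (Set.range Rk) = ⊤ :=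
    span_eq_top_of_map K Rk hirr
  exact eq_zero_of_trace_of_span R (span_eq_top_of_residue R h1) E hE

end Local

/-! ### The frozen shape -/

section Frozen

open scoped TensorProduct

variable {T : Type} [CommRing T] [IsLocalRing T]

/-- **Trace rigidity** for a frozen `GaloisRepAdic T` whose residual representation is absolutely
irreducible: if `tr ρ(g τ) = tr ρ(g)` for all `g`, then `ρ(τ) = 1`. -/
theorem rho_eq_one_of_trace (ρ : GaloisRepAdic T) (habs : ρ.residual.IsAbsolutelyIrreducible)
    (τ : AlgebraicClosure ℚ ≃ₐ[ℚ] AlgebraicClosure ℚ)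
    (h : ∀ g : AlgebraicClosure ℚ ≃ₐ[ℚ] AlgebraicClosure ℚ,
      LinearMap.trace T ρ.V (ρ.ρ (g * τ)) = LinearMap.trace T ρ.V (ρ.ρ g)) :
    ρ.ρ τ = 1 := by
  classical
  let b : Module.Basis (Fin 2) T ρ.V := Module.finBasisOfFinrankEq T ρ.V ρ.finrank_eq
  let R : (AlgebraicClosure ℚ ≃ₐ[ℚ] AlgebraicClosure ℚ) →* Matrix (Fin 2) (Fin 2) T :=
    ((LinearMap.toMatrixAlgEquiv b : (ρ.V →ₗ[T] ρ.V) ≃ₐ[T] Matrix (Fin 2) (Fin 2) T) :
      (ρ.V →ₗ[T] ρ.V) →* Matrix (Fin 2) (Fin 2) T).comp ρ.ρ
  have hR : ∀ g, R g = LinearMap.toMatrix b b (ρ.ρ g) := fun g => rfl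
  let bk : Module.Basis (Fin 2) (IsLocalRing.ResidueField T) (IsLocalRing.ResidueField T ⊗[T] ρ.V) :=
    Algebra.TensorProduct.basis (IsLocalRing.ResidueField T) b
  let bK : Module.Basis (Fin 2) (AlgebraicClosure (IsLocalRing.ResidueField T))
      (AlgebraicClosure (IsLocalRing.ResidueField T) ⊗[IsLocalRing.ResidueField T]
        (IsLocalRing.ResidueField T ⊗[T] ρ.V)) :=
    Algebra.TensorProduct.basis (AlgebraicClosure (IsLocalRing.ResidueField T)) bk
  have hmat : ∀ σ, LinearMap.toMatrix bK bK
      ((ρ.residual.baseChange (AlgebraicClosure (IsLocalRing.ResidueField T))).ρ σ)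
      = ((R σ).map (IsLocalRing.residue T)).map
          (algebraMap (IsLocalRing.ResidueField T)
            (AlgebraicClosure (IsLocalRing.ResidueField T))) := by
    intro σ
    have h1 : (ρ.residual.baseChange (AlgebraicClosure (IsLocalRing.ResidueField T))).ρ σ
        = ((ρ.ρ σ).baseChange (IsLocalRing.ResidueField T)).baseChange
            (AlgebraicClosure (IsLocalRing.ResidueField T)) := rfl
    rw [h1, LinearMap.toMatrix_baseChange, LinearMap.toMatrix_baseChange, hR]
    rfl
  have hirr : ∀ v : Fin 2 → AlgebraicClosure (IsLocalRing.ResidueField T), v ≠ 0 → ∃ g,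
      ¬ ∃ c : AlgebraicClosure (IsLocalRing.ResidueField T),
        ((R g).map (IsLocalRing.residue T)).map
          (algebraMap (IsLocalRing.ResidueField T)
            (AlgebraicClosure (IsLocalRing.ResidueField T))) *ᵥ v = c • v := by
    intro v hv
    by_contra hcon
    push Not at hcon
    set x := bK.equivFun.symm v with hxdef
    have hxv : bK.equivFun x = v := by rw [hxdef, LinearEquiv.apply_symm_apply]
    have hx : x ≠ 0 := by
      intro h0
      apply hv
      rw [← hxv, h0, map_zero]
    have hact : ∀ σ, ∃ c : AlgebraicClosure (IsLocalRing.ResidueField T),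
        (ρ.residual.baseChange (AlgebraicClosure (IsLocalRing.ResidueField T))).ρ σ x = c • x := by
      intro σ
      obtain ⟨c, hc⟩ := hcon σ
      refine ⟨c, bK.equivFun.injective ?_⟩
      have h2 := LinearMap.toMatrix_mulVec_repr bK bK
        ((ρ.residual.baseChange (AlgebraicClosure (IsLocalRing.ResidueField T))).ρ σ) x
      rw [hmat σ] at h2
      have h3 : (bK.repr x : Fin 2 → AlgebraicClosure (IsLocalRing.ResidueField T)) = v := hxv
      rw [h3, hc] at h2
      rw [map_smul, hxv]
      exact h2.symm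
    have hstab : ∀ σ : AlgebraicClosure ℚ ≃ₐ[ℚ] AlgebraicClosure ℚ,
        ∀ y ∈ Submodule.span (AlgebraicClosure (IsLocalRing.ResidueField T)) {x},
          (ρ.residual.baseChange (AlgebraicClosure (IsLocalRing.ResidueField T))).ρ σ y
            ∈ Submodule.span (AlgebraicClosure (IsLocalRing.ResidueField T)) {x} := by
      intro σ y hy
      obtain ⟨a, rfl⟩ := Submodule.mem_span_singleton.mp hy
      obtain ⟨c, hc⟩ := hact σ
      have e0 := LinearMap.map_smul
        ((ρ.residual.baseChange (AlgebraicClosure (IsLocalRing.ResidueField T))).ρ σ) a x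
      have e1 : (ρ.residual.baseChange (AlgebraicClosure (IsLocalRing.ResidueField T))).ρ σ (a • x)
          = a • c • x := e0.trans (congrArg (fun y => a • y) hc)
      have key : a • c • x ∈ Submodule.span (AlgebraicClosure (IsLocalRing.ResidueField T)) {x} :=
        Submodule.smul_mem _ _ (Submodule.smul_mem _ _ (Submodule.mem_span_singleton_self x))
      exact Eq.mpr (congrArg (fun y => y ∈
        Submodule.span (AlgebraicClosure (IsLocalRing.ResidueField T)) {x}) e1) key
    rcases habs _ hstab with h0 | h1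
    · apply hx
      have := Submodule.mem_span_singleton_self (R := AlgebraicClosure (IsLocalRing.ResidueField T)) x
      rw [h0] at this
      exact (Submodule.mem_bot _).mp this
    · obtain ⟨a0, ha0⟩ := Submodule.mem_span_singleton.mp (Submodule.eq_top_iff'.mp h1 (bK 0))
      obtain ⟨a1, ha1⟩ := Submodule.mem_span_singleton.mp (Submodule.eq_top_iff'.mp h1 (bK 1))
      have e0 := congrArg (fun y => bK.repr y) ha0
      have e1 := congrArg (fun y => bK.repr y) ha1
      simp only [map_smul, Module.Basis.repr_self] at e0 e1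
      have e00 := DFunLike.congr_fun e0 0
      have e10 := DFunLike.congr_fun e1 0
      have e11 := DFunLike.congr_fun e1 1
      simp only [Finsupp.smul_apply, smul_eq_mul, Finsupp.single_apply] at e00 e10 e11
      simp at e00 e10 e11
      rcases e10 with h0 | h0
      · rw [h0, zero_mul] at e11
        exact zero_ne_one e11
      · rw [h0, mul_zero] at e00
        exact zero_ne_one e00
  have hE := eq_zero_of_trace_local (AlgebraicClosure (IsLocalRing.ResidueField T)) R hirr
    (R τ - 1) (fun g => by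
      rw [mul_sub, mul_one, trace_sub, ← map_mul, hR, hR, ← LinearMap.trace_eq_matrix_trace T b,
        ← LinearMap.trace_eq_matrix_trace T b, h g, sub_self])
  have h1 : LinearMap.toMatrix b b (ρ.ρ τ) = LinearMap.toMatrix b b 1 := by
    rw [← hR, sub_eq_zero.mp hE, LinearMap.toMatrix_one]
  exact (LinearMap.toMatrix b b).injective h1

end Frozen

end Fermat.Agent.S31.Burnside

end
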